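/-
P11 / S16, package R (modular half), part 3: the eta quotient `u₄ = (η(z)/η(pz))⁴`,
for `p ≡ 1 mod 6`: `Γ₀(p)`-invariance, behaviour under `S`, expansions at both cusps.
-/
import Mathlib
import Fermat.Agent.Lib.Eis.Eta.EtaQuotExp

set_option autoImplicit false

open ModularForm Complex ModularGroup CongruenceSubgroup
open Fermat.Agent.S24Lib Fermat.Agent.ES
open UpperHalfPlane hiding I
open scoped Real MatrixGroups ModularForm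

namespace Fermat.Agent.Eis

/-- `u₄ = (η(z) / η(p z))⁴` -/
noncomputable def rtU4 (p : ℕ) [NeZero p] : ℍ → ℂ :=
  fun z => η (z : ℂ) ^ 4 / η ((eeScale p z : ℍ) : ℂ) ^ 4

variable (p : ℕ) [NeZero p]

theorem rtU4_mul_eeU8 (z : ℍ) : rtU4 p z * eeU8 p z = eeV p z := by
  have h1 : η ((eeScale p z : ℍ) : ℂ) ≠ 0 := eta_ne_zero (eeScale p z).2
  show η (z : ℂ) ^ 4 / η ((eeScale p z : ℍ) : ℂ) ^ 4 *
    (η (z : ℂ) ^ 8 / η ((eeScale p z : ℍ) : ℂ) ^ 8) =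
    η (z : ℂ) ^ 12 / η ((eeScale p z : ℍ) : ℂ) ^ 12
  field_simp

theorem eeU8_ne_zero (z : ℍ) : eeU8 p z ≠ 0 := by
  have h1 : η ((eeScale p z : ℍ) : ℂ) ≠ 0 := eta_ne_zero (eeScale p z).2
  have h2 : η (z : ℂ) ≠ 0 := eta_ne_zero z.2
  exact div_ne_zero (pow_ne_zero _ h2) (pow_ne_zero _ h1)

theorem rtU4_eq_div (z : ℍ) : rtU4 p z = eeV p z / eeU8 p z := by
  rw [← rtU4_mul_eeU8, mul_div_assoc, div_self (eeU8_ne_zero p z), mul_one]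

theorem rtU4_gamma0_invariant (hp2 : p % 2 = 1) (hp3 : p % 3 = 1) (γ : SL(2, ℤ))
    (hγ : γ ∈ Gamma0 p) (z : ℍ) : rtU4 p (γ • z) = rtU4 p z := by
  rw [rtU4_eq_div, rtU4_eq_div, eeV_gamma0_invariant p hp2 γ hγ, eeU8_gamma0_invariant p hp3 γ hγ]

theorem rtU4_S (z : ℍ) :
    rtU4 p (S • z) = (p : ℂ) ^ 2 * (η (z : ℂ) ^ 4 / η ((eeDiv p z : ℍ) : ℂ) ^ 4) := by
  have hp : (p : ℂ) ≠ 0 := by exact_mod_cast NeZero.ne p
  have hη : η ((eeDiv p z : ℍ) : ℂ) ≠ 0 := eta_ne_zero (eeDiv p z).2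
  have hη' : η (z : ℂ) ≠ 0 := eta_ne_zero z.2
  rw [rtU4_eq_div, eeV_S, eeU8_S]
  field_simp

local notation "𝕢" => Function.Periodic.qParam

theorem rt_exp_u4_inf {k : ℕ} (hk : p = 6 * k + 1) (z : ℍ) :
    𝕢 24 (z : ℂ) ^ 4 / 𝕢 24 ((eeScale p z : ℍ) : ℂ) ^ 4 = ((qH ((1 : ℕ) : ℝ) z)⁻¹) ^ k := by
  have hp : (p : ℂ) = 6 * k + 1 := by exact_mod_cast hk
  simp only [Function.Periodic.qParam, qH, coe_eeScale]
  rw [← Complex.exp_nat_mul, ← Complex.exp_nat_mul, ← Complex.exp_sub, ← Complex.exp_neg,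
    ← Complex.exp_nat_mul]
  congr 1
  rw [hp]
  push_cast
  ring

theorem rt_exp_u4_zero {k : ℕ} (hk : p = 6 * k + 1) (z : ℍ) :
    𝕢 24 (z : ℂ) ^ 4 / 𝕢 24 ((eeDiv p z : ℍ) : ℂ) ^ 4 = (qH (p : ℝ) z) ^ k := by
  have hp : (p : ℂ) = 6 * k + 1 := by exact_mod_cast hk
  have hp0 : (p : ℂ) ≠ 0 := by exact_mod_cast NeZero.ne p
  simp only [Function.Periodic.qParam, qH, coe_eeDiv]
  rw [← Complex.exp_nat_mul, ← Complex.exp_nat_mul, ← Complex.exp_sub, ← Complex.exp_nat_mul]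
  congr 1
  push_cast
  field_simp
  rw [hp]
  ring

/-- `u₄` at `∞`: `q^{-k} ∏ ((1 - qⁿ)/(1 - q^{pn}))⁴`, `k = (p - 1)/6` -/
noncomputable def rtU4LS (K : Type*) [CommRing K] (p : ℕ) [NeZero p] (k : ℕ) : LaurentSeries K :=
  HahnSeries.single (-(k : ℤ)) (1 : K) * (eeEtaLS K * ModularCurve.qExpand K p (eeEtaInvLS K)) ^ 4

/-- `u₄ ∘ S` in `T = q^{1/p}`: `p² T^k ∏ ((1 - T^{pn})/(1 - Tⁿ))⁴` -/
noncomputable def rtU4SLS (K : Type*) [CommRing K] (p : ℕ) [NeZero p] (k : ℕ) : LaurentSeries K :=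
  HahnSeries.C ((p : K) ^ 2) * HahnSeries.single (k : ℤ) (1 : K) *
    (ModularCurve.qExpand K p (eeEtaLS K) * eeEtaInvLS K) ^ 4

theorem rtU4_eq {k : ℕ} (hk : p = 6 * k + 1) :
    rtU4 p = fun z => ((qH ((1 : ℕ) : ℝ) z)⁻¹) ^ k * (eeP z * (eeP (eeScale p z))⁻¹) ^ 4 := by
  funext z
  show η (z : ℂ) ^ 4 / η ((eeScale p z : ℍ) : ℂ) ^ 4 = _
  rw [ee_eta_eq, ee_eta_eq, ← rt_exp_u4_inf p hk z, mul_pow, mul_pow, mul_pow, inv_pow]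
  rw [mul_div_mul_comm, div_eq_mul_inv (eeP z ^ 4)]

theorem rt_qLaurent_rtU4 {k : ℕ} (hk : p = 6 * k + 1) :
    IsQLaurentable 1 (rtU4 p) ∧ qLaurent 1 (rtU4 p) = rtU4LS ℂ p k := by
  have hA := ee_isQLaurentable_qH_inv 1
  have hB := ee_isQLaurentable_eeP
  have hC := ee_qLaurent_comp_scale p ee_isQLaurentable_eeP_inv
  rw [rtU4_eq p hk]
  refine ⟨(hA.pow k).mul ((hB.mul hC.1).pow 4), ?_⟩
  rw [qLaurent_mul (hA.pow k) ((hB.mul hC.1).pow 4), qLaurent_pow hA, qLaurent_pow (hB.mul hC.1),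
    qLaurent_mul hB hC.1, hC.2, ee_qLaurent_qH_inv, qLaurent_eeP, qLaurent_eeP_inv,
    ee_single_neg_one_pow, rtU4LS]

theorem rtU4_S_eq {k : ℕ} (hk : p = 6 * k + 1) :
    (fun z => rtU4 p (S • z)) = fun z => (p : ℂ) ^ 2 *
      ((qH (p : ℝ) z) ^ k * (eeP z * (eeP (eeDiv p z))⁻¹) ^ 4) := by
  funext z
  rw [rtU4_S, ee_eta_eq, ee_eta_eq, ← rt_exp_u4_zero p hk z, mul_pow, mul_pow, mul_pow, inv_pow]
  rw [mul_div_mul_comm, div_eq_mul_inv (eeP z ^ 4)]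

theorem rt_qLaurent_rtU4_S {k : ℕ} (hk : p = 6 * k + 1) :
    IsQLaurentable p (fun z => rtU4 p (S • z)) ∧
      qLaurent p (fun z => rtU4 p (S • z)) = rtU4SLS ℂ p k := by
  have hc : IsQLaurentable p (fun _ : ℍ => (p : ℂ) ^ 2) := IsQLaurentable.const p _
  have hA := ee_isQLaurentable_qH p
  have hB := qLaurent_change_period p ee_isQLaurentable_eeP
  have hC := ee_qLaurent_comp_div p ee_isQLaurentable_eeP_inv
  rw [rtU4_S_eq p hk]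
  refine ⟨hc.mul ((hA.pow k).mul ((hB.1.mul hC.1).pow 4)), ?_⟩
  rw [qLaurent_mul hc ((hA.pow k).mul ((hB.1.mul hC.1).pow 4)), qLaurent_const,
    qLaurent_mul (hA.pow k) ((hB.1.mul hC.1).pow 4), qLaurent_pow hA,
    qLaurent_pow (hB.1.mul hC.1), qLaurent_mul hB.1 hC.1, hB.2, hC.2, ee_qLaurent_qH,
    qLaurent_eeP, qLaurent_eeP_inv, ee_single_one_pow, rtU4SLS, mul_assoc]

end Fermat.Agent.Eis
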