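/-
P11 / S16, package R (modular half), part 6: extracting the constant term of
`q^{-k} (∏(1-qⁿ)/∏(1-q^{pn}))⁴ · G(q)` for `k < p`.
-/
import Mathlib
import Fermat.Agent.Lib.ES.QLaurent
import Fermat.Agent.Lib.Eis.ResTest.EtaFourFun

set_option autoImplicit false

open Fermat.Agent.ES

namespace Fermat.Agent.Eis

open PowerSeries

variable (p : ℕ) [NeZero p]

/-- the power series `b(X^p)` -/
noncomputable def rtExpandPS (b : PowerSeries ℂ) : PowerSeries ℂ :=
  PowerSeries.mk fun n => if p ∣ n then PowerSeries.coeff (n / p) b else 0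

theorem rt_qExpand_ofPowerSeries (b : PowerSeries ℂ) :
    ModularCurve.qExpand ℂ p (HahnSeries.ofPowerSeries ℤ ℂ b) =
      HahnSeries.ofPowerSeries ℤ ℂ (rtExpandPS p b) := by
  have hp : (0 : ℤ) < p := by exact_mod_cast Nat.pos_of_ne_zero (NeZero.ne p)
  ext m
  by_cases hm : (p : ℤ) ∣ m
  · obtain ⟨c, rfl⟩ := hm
    rw [ModularCurve.qExpand_coeff_mul, ofPowerSeries_coeff_int, ofPowerSeries_coeff_int]
    by_cases hc : 0 ≤ c
    · obtain ⟨n, rfl⟩ := Int.eq_ofNat_of_zero_le hc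
      rw [if_pos hc, if_pos (by positivity), Int.toNat_natCast]
      have : ((p : ℤ) * (n : ℤ)).toNat = p * n := by
        rw [← Nat.cast_mul, Int.toNat_natCast]
      rw [this, rtExpandPS, PowerSeries.coeff_mk, if_pos (dvd_mul_right p n),
        Nat.mul_div_cancel_left n (Nat.pos_of_ne_zero (NeZero.ne p))]
    · rw [if_neg hc, if_neg]
      intro h
      apply hc
      exact nonneg_of_mul_nonneg_right h hp
  · rw [ModularCurve.qExpand_coeff_of_not_dvd p _ hm, ofPowerSeries_coeff_int]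
    split_ifs with h0
    · obtain ⟨n, rfl⟩ := Int.eq_ofNat_of_zero_le h0
      rw [Int.toNat_natCast, rtExpandPS, PowerSeries.coeff_mk, if_neg]
      intro h
      exact hm (Int.natCast_dvd_natCast.mpr h)
    · rfl

/-- `b(X^p) = 1 + X^p · c` when `b(0) = 1` -/
theorem rtExpandPS_eq (b : PowerSeries ℂ) (hb : PowerSeries.coeff 0 b = 1) :
    ∃ c : PowerSeries ℂ, rtExpandPS p b = 1 + PowerSeries.X ^ p * c := by
  refine ⟨PowerSeries.mk fun n => PowerSeries.coeff (n + p) (rtExpandPS p b), ?_⟩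
  ext n
  rw [map_add, PowerSeries.coeff_X_pow_mul', PowerSeries.coeff_mk, PowerSeries.coeff_one]
  have hp : 0 < p := Nat.pos_of_ne_zero (NeZero.ne p)
  by_cases hn : p ≤ n
  · rw [if_pos hn, if_neg (by omega), zero_add, Nat.sub_add_cancel hn]
  · rw [if_neg hn, add_zero, rtExpandPS, PowerSeries.coeff_mk]
    by_cases h0 : n = 0
    · subst h0
      rw [if_pos (dvd_zero p), if_pos rfl, Nat.zero_div, hb]
    · rw [if_neg h0, if_neg]
      intro h
      exact hn (Nat.le_of_dvd (Nat.pos_of_ne_zero h0) h)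

/-- coefficients below `p` of `a · b(X^p)^4` are those of `a` -/
theorem rt_coeff_mul_expand_pow_four (a b : PowerSeries ℂ) (hb : PowerSeries.coeff 0 b = 1)
    {i : ℕ} (hi : i < p) :
    PowerSeries.coeff i (a * rtExpandPS p b ^ 4) = PowerSeries.coeff i a := by
  obtain ⟨c, hc⟩ := rtExpandPS_eq p b hb
  have : a * rtExpandPS p b ^ 4 =
      a + PowerSeries.X ^ p * (a * c * (4 + 6 * (X ^ p * c) + 4 * (X ^ p * c) ^ 2 +
        (X ^ p * c) ^ 3)) := by
    rw [hc]; ring
  rw [this, map_add, PowerSeries.coeff_X_pow_mul', if_neg (by omega), add_zero]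

/-- **constant term extraction** -/
theorem rt_coeff_zero_rtU4LS_mul (k : ℕ) (hk : k < p) (Gs : PowerSeries ℂ) :
    (rtU4LS ℂ p k * HahnSeries.ofPowerSeries ℤ ℂ Gs).coeff 0 =
      ∑ ij ∈ Finset.HasAntidiagonal.antidiagonal k,
        ((PowerSeries.coeff ij.1 (ModularCurve.etaProd ^ 4) : ℤ) : ℂ) * PowerSeries.coeff ij.2 Gs := by
  set a : PowerSeries ℂ := ModularCurve.etaProd.map (Int.castRingHom ℂ) with ha
  set b : PowerSeries ℂ := eeEtaProdInv.map (Int.castRingHom ℂ) with hb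
  have hb0 : PowerSeries.coeff 0 b = 1 := by
    rw [hb, PowerSeries.coeff_map, eeEtaProdInv, PowerSeries.coeff_zero_eq_constantCoeff_apply,
      PowerSeries.constantCoeff_invOfUnit]
    simp
  have h1 : rtU4LS ℂ p k * HahnSeries.ofPowerSeries ℤ ℂ Gs =
      HahnSeries.single (-(k : ℤ)) (1 : ℂ) *
        HahnSeries.ofPowerSeries ℤ ℂ ((a ^ 4 * rtExpandPS p b ^ 4) * Gs) := by
    rw [rtU4LS, eeEtaLS, eeEtaInvLS, rt_qExpand_ofPowerSeries, ← map_mul, ← map_pow, mul_assoc,
      ← map_mul, mul_pow]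
  rw [h1]
  have h2 : (HahnSeries.single (-(k : ℤ)) (1 : ℂ) *
        HahnSeries.ofPowerSeries ℤ ℂ ((a ^ 4 * rtExpandPS p b ^ 4) * Gs)).coeff ((k : ℤ) + (-(k : ℤ)))
      = 1 * (HahnSeries.ofPowerSeries ℤ ℂ ((a ^ 4 * rtExpandPS p b ^ 4) * Gs)).coeff (k : ℤ) :=
    HahnSeries.coeff_single_mul_add
  rw [add_neg_cancel, one_mul] at h2
  rw [h2, HahnSeries.ofPowerSeries_apply_coeff, PowerSeries.coeff_mul]
  refine Finset.sum_congr rfl fun ij hij => ?_
  have hle : ij.1 ≤ k := by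
    have := Finset.HasAntidiagonal.mem_antidiagonal.mp hij
    omega
  rw [rt_coeff_mul_expand_pow_four p _ b hb0 (by omega), ha, ← map_pow, PowerSeries.coeff_map]
  rfl

end Fermat.Agent.Eis
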