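import Mathlib

/-!
# Representations `4p = a² + 3b²` (P11 / S16, package R-arith)

* `rt_exists_sq_add_three_sq`: a prime `p ≡ 1 mod 3` is of the form `x² + 3y²`.
* `rt_classify`: two representations `a² + 3b² = 4p = c² + 3d²` satisfy
  `d² = b²` or `4d² = (a ± b)²`.
-/

namespace Fermat.Agent.Eis

/-- `-3` is a square modulo a prime `p ≡ 1 mod 3`. -/
lemma rt_exists_sq_eq_neg_three {p : ℕ} [hp : Fact p.Prime] (h3 : p % 3 = 1) :
    ∃ u : ZMod p, u ^ 2 = -3 := by
  have hcard : Nat.card (ZMod p)ˣ = p - 1 := by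
    rw [Nat.card_eq_fintype_card, ZMod.card_units_eq_totient, Nat.totient_prime hp.out]
  have hdvd : 3 ∣ Nat.card (ZMod p)ˣ := by
    rw [hcard]
    have := hp.out.two_le
    omega
  have : Fact (Nat.Prime 3) := ⟨Nat.prime_three⟩
  obtain ⟨g, hg⟩ := exists_prime_orderOf_dvd_card' 3 hdvd
  have hg3 : g ^ 3 = 1 := by rw [← hg]; exact pow_orderOf_eq_one g
  have hg1 : g ≠ 1 := by
    intro h
    rw [h, orderOf_one] at hg
    norm_num at hg
  set w : ZMod p := (g : ZMod p) with hw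
  have hw3 : w ^ 3 = 1 := by
    rw [hw, ← Units.val_pow_eq_pow_val, hg3, Units.val_one]
  have hw1 : w ≠ 1 := by
    intro h
    apply hg1
    exact Units.ext (by rw [← hw, h, Units.val_one])
  have hquad : w ^ 2 + w + 1 = 0 := by
    have : (w - 1) * (w ^ 2 + w + 1) = 0 := by ring_nf; rw [hw3]; ring
    rcases mul_eq_zero.mp this with h | h
    · exact absurd (sub_eq_zero.mp h) hw1
    · exact h
  refine ⟨2 * w + 1, ?_⟩
  have : (2 * w + 1) ^ 2 = 4 * (w ^ 2 + w + 1) - 3 := by ring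
  rw [this, hquad]
  ring

/-- **Fermat**: a prime `p ≡ 1 mod 3` is of the form `x² + 3y²`. -/
theorem rt_exists_sq_add_three_sq {p : ℕ} [hp : Fact p.Prime] (h3 : p % 3 = 1) :
    ∃ x y : ℤ, x ^ 2 + 3 * y ^ 2 = p := by
  obtain ⟨u, hu⟩ := rt_exists_sq_eq_neg_three h3
  set r := Nat.sqrt p with hr
  have hr1 : r * r ≤ p := Nat.sqrt_le p
  have hr2 : p < (r + 1) * (r + 1) := Nat.lt_succ_sqrt p
  have hr3 : r * r < p := by
    refine lt_of_le_of_ne hr1 fun h => ?_
    have hdvd : r ∣ p := ⟨r, h.symm⟩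
    rcases (Nat.dvd_prime hp.out).mp hdvd with h1 | h1
    · rw [h1] at h; have := hp.out.two_le; omega
    · rw [h1] at h
      have := hp.out.two_le
      nlinarith
  -- pigeonhole
  let f : Fin (r + 1) × Fin (r + 1) → ZMod p := fun ij => (ij.1.val : ZMod p) - u * (ij.2.val : ZMod p)
  have hcard : Fintype.card (ZMod p) < Fintype.card (Fin (r + 1) × Fin (r + 1)) := by
    rw [ZMod.card, Fintype.card_prod, Fintype.card_fin]; exact hr2
  obtain ⟨⟨i, j⟩, ⟨i', j'⟩, hne, heq⟩ := Fintype.exists_ne_map_eq_of_card_lt f hcard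
  set X : ℤ := (i.val : ℤ) - (i'.val : ℤ) with hX
  set Y : ℤ := (j.val : ℤ) - (j'.val : ℤ) with hY
  have hXY : (X : ZMod p) = u * (Y : ZMod p) := by
    simp only [f] at heq
    rw [hX, hY]
    push_cast
    linear_combination heq
  have hp_dvd : (p : ℤ) ∣ X ^ 2 + 3 * Y ^ 2 := by
    rw [← ZMod.intCast_zmod_eq_zero_iff_dvd]
    push_cast
    rw [hXY]
    linear_combination (Y : ZMod p) ^ 2 * hu
  have hXb : X ^ 2 ≤ (r : ℤ) ^ 2 := by
    have h1 := i.isLt; have h2 := i'.isLt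
    have : |X| ≤ (r : ℤ) := by rw [abs_le, hX]; constructor <;> omega
    exact sq_le_sq' (by linarith [abs_le.mp this]) (abs_le.mp this).2
  have hYb : Y ^ 2 ≤ (r : ℤ) ^ 2 := by
    have h1 := j.isLt; have h2 := j'.isLt
    have : |Y| ≤ (r : ℤ) := by rw [abs_le, hY]; constructor <;> omega
    exact sq_le_sq' (by linarith [abs_le.mp this]) (abs_le.mp this).2
  have hne0 : X ≠ 0 ∨ Y ≠ 0 := by
    by_contra hcon
    rw [not_or, not_not, not_not] at hcon
    apply hne
    have h1 : i = i' := Fin.ext (by have := hcon.1; omega)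
    have h2 : j = j' := Fin.ext (by have := hcon.2; omega)
    rw [h1, h2]
  have hpos : 0 < X ^ 2 + 3 * Y ^ 2 := by
    rcases hne0 with h | h
    · have := sq_pos_of_ne_zero (a := X) h (R := ℤ); positivity
    · have := sq_pos_of_ne_zero (a := Y) h (R := ℤ); positivity
  have hlt : X ^ 2 + 3 * Y ^ 2 < 4 * (p : ℤ) := by
    have : (r : ℤ) ^ 2 < p := by rw [sq]; exact_mod_cast hr3
    nlinarith
  obtain ⟨c, hc⟩ := hp_dvd
  have hc1 : 0 < c := by
    by_contra h
    have hp0 : (0 : ℤ) < p := by exact_mod_cast hp.out.pos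
    nlinarith
  have hc4 : c < 4 := by
    have hp0 : (0 : ℤ) < p := by exact_mod_cast hp.out.pos
    nlinarith
  have hpodd : (p : ℤ) % 2 = 1 := by
    have : p % 2 = 1 := by
      rcases hp.out.eq_two_or_odd with h | h
      · rw [h] at h3; norm_num at h3
      · exact h
    omega
  interval_cases c
  · exact ⟨X, Y, by rw [hc]; ring⟩
  · -- c = 2 impossible mod 4
    exfalso
    have h4 : (X ^ 2 + 3 * Y ^ 2) % 4 = (p * 2 : ℤ) % 4 := by rw [hc]
    have hx : X % 4 = 0 ∨ X % 4 = 1 ∨ X % 4 = 2 ∨ X % 4 = 3 := by omega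
    have hy : Y % 4 = 0 ∨ Y % 4 = 1 ∨ Y % 4 = 2 ∨ Y % 4 = 3 := by omega
    have hp4 : (p : ℤ) % 4 = 1 ∨ (p : ℤ) % 4 = 3 := by omega
    rcases hx with hx | hx | hx | hx <;> rcases hy with hy | hy | hy | hy <;>
      rcases hp4 with hp4 | hp4 <;>
      simp [pow_two, Int.add_emod, Int.mul_emod, hx, hy, hp4] at h4
  · -- c = 3: divide by 3
    have h3X : (3 : ℤ) ∣ X := by
      have : (3 : ℤ) ∣ X ^ 2 := ⟨p - Y ^ 2, by linarith⟩
      exact Int.Prime.dvd_pow' Nat.prime_three this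
    obtain ⟨X₁, hX₁⟩ := h3X
    refine ⟨Y, X₁, ?_⟩
    rw [hX₁] at hc
    linarith

/-- Classification of the representations of `4p` by `a² + 3b²`. -/
theorem rt_classify {p : ℕ} (hp : p.Prime) {a b c d : ℤ} (h1 : a ^ 2 + 3 * b ^ 2 = 4 * p)
    (h2 : c ^ 2 + 3 * d ^ 2 = 4 * p) :
    d ^ 2 = b ^ 2 ∨ 4 * d ^ 2 = (a + b) ^ 2 ∨ 4 * d ^ 2 = (a - b) ^ 2 := by
  have hp0 : (0 : ℤ) < p := by exact_mod_cast hp.pos
  have hpp : Prime (p : ℤ) := Nat.prime_iff_prime_int.mp hp
  -- the case `p ∣ a d - b c`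
  have key : ∀ c d : ℤ, c ^ 2 + 3 * d ^ 2 = 4 * p → (p : ℤ) ∣ a * d - b * c →
      d ^ 2 = b ^ 2 ∨ 4 * d ^ 2 = (a + b) ^ 2 ∨ 4 * d ^ 2 = (a - b) ^ 2 := by
    intro c d h2 ⟨t, ht⟩
    have hnorm : (a * c + 3 * b * d) ^ 2 + 3 * (a * d - b * c) ^ 2 = 16 * (p : ℤ) ^ 2 := by
      have : (a * c + 3 * b * d) ^ 2 + 3 * (a * d - b * c) ^ 2
          = (a ^ 2 + 3 * b ^ 2) * (c ^ 2 + 3 * d ^ 2) := by ring
      rw [this, h1, h2]; ring
    have hdvd : (p : ℤ) ∣ a * c + 3 * b * d := by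
      have : (p : ℤ) ∣ (a * c + 3 * b * d) ^ 2 := by
        refine ⟨p * (16 - 3 * t ^ 2), ?_⟩
        rw [ht] at hnorm
        linear_combination hnorm
      exact hpp.dvd_of_dvd_pow this
    obtain ⟨s, hs⟩ := hdvd
    have hst : s ^ 2 + 3 * t ^ 2 = 16 := by
      rw [hs, ht] at hnorm
      have : (p : ℤ) ^ 2 * (s ^ 2 + 3 * t ^ 2) = (p : ℤ) ^ 2 * 16 := by linear_combination hnorm
      exact mul_left_cancel₀ (pow_ne_zero 2 hp0.ne') this
    have h4d : 4 * d = a * t + b * s := by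
      have : (p : ℤ) * (4 * d) = (p : ℤ) * (a * t + b * s) := by
        have e : (a ^ 2 + 3 * b ^ 2) * d = a * (a * d - b * c) + b * (a * c + 3 * b * d) := by ring
        rw [h1, ht, hs] at e
        linear_combination e
      exact mul_left_cancel₀ hp0.ne' this
    have ht2 : t ^ 2 ≤ 5 := by nlinarith [sq_nonneg s]
    have htb : -2 ≤ t ∧ t ≤ 2 := by constructor <;> nlinarith
    have hsb : -4 ≤ s ∧ s ≤ 4 := by constructor <;> nlinarith [sq_nonneg t]
    obtain ⟨ht1, ht2'⟩ := htb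
    obtain ⟨hs1, hs2⟩ := hsb
    have hsq : ∀ u v : ℤ, 2 * d = u → u ^ 2 = v → 4 * d ^ 2 = v := by
      intro u v hu hv
      rw [← hv, ← hu]; ring
    interval_cases t <;> interval_cases s <;> simp at hst
    · -- t = -2, s = -2
      right; left
      exact hsq (-(a + b)) _ (by linarith) (by ring)
    · -- t = -2, s = 2
      right; right
      exact hsq (-(a - b)) _ (by linarith) (by ring)
    · -- t = 0, s = -4
      left
      have : d = -b := by linarith
      rw [this]; ring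
    · -- t = 0, s = 4
      left
      have : d = b := by linarith
      rw [this]
    · -- t = 2, s = -2
      right; right
      exact hsq (a - b) _ (by linarith) (by ring)
    · -- t = 2, s = 2
      right; left
      exact hsq (a + b) _ (by linarith) (by ring)
  have hprod : (p : ℤ) ∣ (a * d - b * c) * (a * d + b * c) := by
    refine ⟨4 * (d ^ 2 - b ^ 2), ?_⟩
    have : (a * d - b * c) * (a * d + b * c) = (a ^ 2 + 3 * b ^ 2) * d ^ 2 - b ^ 2 * (c ^ 2 + 3 * d ^ 2) := by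
      ring
    rw [this, h1, h2]; ring
  rcases hpp.dvd_or_dvd hprod with h | h
  · exact key c d h2 h
  · have h2' : c ^ 2 + 3 * (-d) ^ 2 = 4 * p := by rw [neg_sq]; exact h2
    have h' : (p : ℤ) ∣ a * (-d) - b * c := by
      have : a * (-d) - b * c = -(a * d + b * c) := by ring
      rw [this]; exact (dvd_neg).mpr h
    have := key c (-d) h2' h'
    simpa [neg_sq] using this

end Fermat.Agent.Eis
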