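import Fermat.Agent.Lib.Eis.ResTest.EtaFour
import Fermat.Agent.Lib.Eis.ResTest.RepFourP

/-!
# The residue test coefficient (P11 / S16, package R-arith)

For a prime `p ≡ 7 mod 24` the coefficient of `X^((p-1)/6)` in `∏ (1 - X^n)^4` is not divisible
by `8`: it equals `± b₁ ± b₂` where `b₁ = |x + y|`, `b₂ = |x - y|`, `p = x² + 3y²`.
-/

namespace Fermat.Agent.Eis

open PowerSeries Finset

/-- evaluation of a double sum of an indicator supported at two points. -/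
lemma rt_double_sum_two {A : Finset ℤ} {B : Finset ℕ} (f : ℤ → ℕ → ℤ) (P : ℤ → ℕ → Prop)
    [∀ k m, Decidable (P k m)] {k₁ k₂ : ℤ} {m₁ m₂ : ℕ} (hm : m₁ ≠ m₂)
    (hk₁ : k₁ ∈ A) (hk₂ : k₂ ∈ A) (hm₁ : m₁ ∈ B) (hm₂ : m₂ ∈ B)
    (h1 : P k₁ m₁) (h2 : P k₂ m₂)
    (huniq : ∀ k m, P k m → (k = k₁ ∧ m = m₁) ∨ (k = k₂ ∧ m = m₂)) :
    ∑ k ∈ A, ∑ m ∈ B, (if P k m then f k m else 0) = f k₁ m₁ + f k₂ m₂ := by
  rw [← Finset.sum_product' A B (fun k m => if P k m then f k m else 0)]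
  rw [← Finset.sum_filter (s := A ×ˢ B) (p := fun x => P x.1 x.2) (f := fun x => f x.1 x.2)]
  have hfilter : (A ×ˢ B).filter (fun x => P x.1 x.2) = {(k₁, m₁), (k₂, m₂)} := by
    ext ⟨k, m⟩
    simp only [Finset.mem_filter, Finset.mem_product, Finset.mem_insert, Finset.mem_singleton,
      Prod.mk.injEq]
    constructor
    · rintro ⟨_, hP⟩
      exact huniq k m hP
    · rintro (⟨rfl, rfl⟩ | ⟨rfl, rfl⟩)
      · exact ⟨⟨hk₁, hm₁⟩, h1⟩
      · exact ⟨⟨hk₂, hm₂⟩, h2⟩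
  rw [hfilter, Finset.sum_pair]
  intro h
  exact hm (Prod.mk.inj h).2

/-- translation of the index condition into a representation of `4p`. -/
lemma rt_cond_iff {p N : ℕ} (hpN : p = 6 * N + 1) (k : ℤ) (m : ℕ) :
    pentagonal k + m * (m + 1) / 2 = N ↔
      (6 * k - 1) ^ 2 + 3 * (2 * (m : ℤ) + 1) ^ 2 = 4 * (p : ℤ) := by
  have h1 := two_mul_natCast_pentagonal k
  have h2 : 2 * ((m * (m + 1) / 2 : ℕ) : ℤ) = (m : ℤ) * ((m : ℤ) + 1) := by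
    have : 2 * (m * (m + 1) / 2) = m * (m + 1) :=
      Nat.two_mul_div_two_of_even (Nat.even_mul_succ_self m)
    exact_mod_cast this
  have key : (6 * k - 1) ^ 2 + 3 * (2 * (m : ℤ) + 1) ^ 2
      = 24 * (pentagonal k : ℤ) + 24 * ((m * (m + 1) / 2 : ℕ) : ℤ) + 4 := by
    linear_combination (-12) * h1 + (-12) * h2
  rw [key, hpN]
  push_cast
  constructor
  · intro h
    have : (pentagonal k : ℤ) + ((m * (m + 1) / 2 : ℕ) : ℤ) = N := by exact_mod_cast h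
    push_cast at this
    linarith
  · intro h
    have : (pentagonal k : ℤ) + ((m * (m + 1) / 2 : ℕ) : ℤ) = N := by
      push_cast
      linarith
    exact_mod_cast this

/-- existence of the index `k` attached to an odd integer prime to `3`. -/
lemma rt_exists_k {a : ℤ} (h2 : a % 2 = 1) (h3 : a % 3 ≠ 0) : ∃ k : ℤ, (6 * k - 1) ^ 2 = a ^ 2 := by
  have h6 : a % 6 = 1 ∨ a % 6 = 5 := by omega
  rcases h6 with h | h
  · refine ⟨(1 - a) / 6, ?_⟩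
    have : 6 * ((1 - a) / 6) = 1 - a := by omega
    rw [this]; ring
  · refine ⟨(a + 1) / 6, ?_⟩
    have : 6 * ((a + 1) / 6) = a + 1 := by omega
    rw [this]; ring

lemma rt_k_unique {k k' : ℤ} (h : (6 * k - 1) ^ 2 = (6 * k' - 1) ^ 2) : k = k' := by
  rcases sq_eq_sq_iff_eq_or_eq_neg.mp h with h | h <;> omega

/-- 2-adic shape of `x² + 3y² ≡ 7 mod 8`. -/
lemma rt_parity {x y : ℤ} {p : ℕ} (h : x ^ 2 + 3 * y ^ 2 = p) (h8 : p % 8 = 7) :
    x % 4 = 2 ∧ y % 2 = 1 := by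
  have hp8 : ((p : ℤ)) % 8 = 7 := by omega
  have h' : (x ^ 2 + 3 * y ^ 2) % 8 = 7 := by rw [h]; exact hp8
  have hx : x % 8 = 0 ∨ x % 8 = 1 ∨ x % 8 = 2 ∨ x % 8 = 3 ∨ x % 8 = 4 ∨ x % 8 = 5 ∨ x % 8 = 6 ∨
      x % 8 = 7 := by omega
  have hy : y % 8 = 0 ∨ y % 8 = 1 ∨ y % 8 = 2 ∨ y % 8 = 3 ∨ y % 8 = 4 ∨ y % 8 = 5 ∨ y % 8 = 6 ∨
      y % 8 = 7 := by omega
  rcases hx with hx | hx | hx | hx | hx | hx | hx | hx <;>
    rcases hy with hy | hy | hy | hy | hy | hy | hy | hy <;>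
    simp [pow_two, Int.add_emod, Int.mul_emod, hx, hy] at h' <;> omega

/-- **The residue test coefficient.** For a prime `p ≡ 7 mod 24`, the coefficient of
`X^((p-1)/6)` in `(∏_{n ≥ 1} (1 - X^n))^4` is not divisible by `8`. -/
theorem rt_not_eight_dvd {p : ℕ} (hp : p.Prime) (h24 : p % 24 = 7) :
    ¬ (8 : ℤ) ∣ coeff ((p - 1) / 6) (rtE ^ 4) := by
  have : Fact p.Prime := ⟨hp⟩
  set N := (p - 1) / 6 with hN
  have hpN : p = 6 * N + 1 := by omega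
  obtain ⟨x, y, hxy⟩ := rt_exists_sq_add_three_sq (p := p) (by omega)
  obtain ⟨hx4, hy2⟩ := rt_parity hxy (by omega)
  -- `x` is prime to 3
  have hx3 : x % 3 ≠ 0 := by
    intro h
    have h3 : (3 : ℤ) ∣ (p : ℤ) := by
      rw [← hxy]
      have : (3 : ℤ) ∣ x := Int.dvd_of_emod_eq_zero h
      exact dvd_add (Dvd.dvd.pow this two_ne_zero) (dvd_mul_right 3 _)
    have : (3 : ℕ) ∣ p := by exact_mod_cast h3
    omega
  -- the two representations of `4p`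
  have hrep1 : (x - 3 * y) ^ 2 + 3 * (x + y) ^ 2 = 4 * (p : ℤ) := by rw [← hxy]; ring
  have hrep2 : (x + 3 * y) ^ 2 + 3 * (x - y) ^ 2 = 4 * (p : ℤ) := by rw [← hxy]; ring
  obtain ⟨k₁, hk₁⟩ := rt_exists_k (a := x - 3 * y) (by omega) (by omega)
  obtain ⟨k₂, hk₂⟩ := rt_exists_k (a := x + 3 * y) (by omega) (by omega)
  set b₁ : ℕ := (x + y).natAbs with hb₁
  set b₂ : ℕ := (x - y).natAbs with hb₂
  set m₁ : ℕ := (b₁ - 1) / 2 with hm₁
  set m₂ : ℕ := (b₂ - 1) / 2 with hm₂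
  have hb₁odd : 2 * m₁ + 1 = b₁ := by omega
  have hb₂odd : 2 * m₂ + 1 = b₂ := by omega
  have hb₁sq : ((2 * (m₁ : ℤ) + 1)) ^ 2 = (x + y) ^ 2 := by
    have : (2 * (m₁ : ℤ) + 1) = ((b₁ : ℕ) : ℤ) := by exact_mod_cast hb₁odd
    rw [this, hb₁, Int.natCast_natAbs, sq_abs]
  have hb₂sq : ((2 * (m₂ : ℤ) + 1)) ^ 2 = (x - y) ^ 2 := by
    have : (2 * (m₂ : ℤ) + 1) = ((b₂ : ℕ) : ℤ) := by exact_mod_cast hb₂odd
    rw [this, hb₂, Int.natCast_natAbs, sq_abs]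
  have hP1 : pentagonal k₁ + m₁ * (m₁ + 1) / 2 = N := by
    rw [rt_cond_iff hpN, hk₁, hb₁sq]; exact hrep1
  have hP2 : pentagonal k₂ + m₂ * (m₂ + 1) / 2 = N := by
    rw [rt_cond_iff hpN, hk₂, hb₂sq]; exact hrep2
  have hmne : m₁ ≠ m₂ := by
    intro h
    have : b₁ = b₂ := by omega
    rw [hb₁, hb₂] at this
    omega
  -- uniqueness
  have huniq : ∀ (k : ℤ) (m : ℕ), pentagonal k + m * (m + 1) / 2 = N →
      (k = k₁ ∧ m = m₁) ∨ (k = k₂ ∧ m = m₂) := by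
    intro k m hP
    have hQ := (rt_cond_iff hpN k m).mp hP
    rcases rt_classify hp hrep1 hQ with h | h | h
    · left
      have hm : m = m₁ := by
        have : (2 * (m : ℤ) + 1) ^ 2 = (2 * (m₁ : ℤ) + 1) ^ 2 := by rw [h, hb₁sq]
        rcases sq_eq_sq_iff_eq_or_eq_neg.mp this with h' | h' <;> omega
      refine ⟨?_, hm⟩
      apply rt_k_unique
      rw [hk₁]
      have : (6 * k - 1) ^ 2 = 4 * (p : ℤ) - 3 * (2 * (m : ℤ) + 1) ^ 2 := by linarith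
      rw [this, h]; linarith
    · right
      have h' : (2 * (m : ℤ) + 1) ^ 2 = (x - y) ^ 2 := by
        have : (x - 3 * y + (x + y)) ^ 2 = 4 * (x - y) ^ 2 := by ring
        rw [this] at h
        linarith
      have hm : m = m₂ := by
        have : (2 * (m : ℤ) + 1) ^ 2 = (2 * (m₂ : ℤ) + 1) ^ 2 := by rw [h', hb₂sq]
        rcases sq_eq_sq_iff_eq_or_eq_neg.mp this with h'' | h'' <;> omega
      refine ⟨?_, hm⟩
      apply rt_k_unique
      rw [hk₂]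
      have : (6 * k - 1) ^ 2 = 4 * (p : ℤ) - 3 * (2 * (m : ℤ) + 1) ^ 2 := by linarith
      rw [this, h']; linarith
    · exfalso
      have h' : (2 * (m : ℤ) + 1) ^ 2 = (2 * y) ^ 2 := by
        have : (x - 3 * y - (x + y)) ^ 2 = 4 * (2 * y) ^ 2 := by ring
        rw [this] at h
        linarith
      rcases sq_eq_sq_iff_eq_or_eq_neg.mp h' with h'' | h'' <;> omega
  -- membership in the box
  have hk₁mem : k₁ ∈ Finset.Icc (-(N : ℤ)) (N : ℤ) := by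
    rw [Finset.mem_Icc]
    have := rt_natAbs_le_pentagonal k₁
    omega
  have hk₂mem : k₂ ∈ Finset.Icc (-(N : ℤ)) (N : ℤ) := by
    rw [Finset.mem_Icc]
    have := rt_natAbs_le_pentagonal k₂
    omega
  have hm₁mem : m₁ ∈ range (N + 1) := by
    rw [Finset.mem_range]
    have := rt_le_tri m₁
    omega
  have hm₂mem : m₂ ∈ range (N + 1) := by
    rw [Finset.mem_range]
    have := rt_le_tri m₂
    omega
  rw [coeff_rtE_pow_four, rt_double_sum_two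
    (fun k m => ((k.negOnePow : ℤˣ) : ℤ) * ((-1) ^ m * (2 * (m : ℤ) + 1)))
    (fun k m => pentagonal k + m * (m + 1) / 2 = N) hmne hk₁mem hk₂mem hm₁mem hm₂mem hP1 hP2 huniq]
  -- the value is `± b₁ ± b₂`
  have hv₁ : (2 * (m₁ : ℤ) + 1) = |x + y| := by
    have : (2 * (m₁ : ℤ) + 1) = ((b₁ : ℕ) : ℤ) := by exact_mod_cast hb₁odd
    rw [this, hb₁, Int.natCast_natAbs]
  have hv₂ : (2 * (m₂ : ℤ) + 1) = |x - y| := by
    have : (2 * (m₂ : ℤ) + 1) = ((b₂ : ℕ) : ℤ) := by exact_mod_cast hb₂odd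
    rw [this, hb₂, Int.natCast_natAbs]
  rw [hv₁, hv₂]
  have hu₁ : ((k₁.negOnePow : ℤˣ) : ℤ) * (-1) ^ m₁ = 1 ∨ ((k₁.negOnePow : ℤˣ) : ℤ) * (-1) ^ m₁ = -1 := by
    rcases Int.units_eq_one_or k₁.negOnePow with h | h <;>
      rcases neg_one_pow_eq_or ℤ m₁ with h' | h' <;> simp [h, h']
  have hu₂ : ((k₂.negOnePow : ℤˣ) : ℤ) * (-1) ^ m₂ = 1 ∨ ((k₂.negOnePow : ℤˣ) : ℤ) * (-1) ^ m₂ = -1 := by
    rcases Int.units_eq_one_or k₂.negOnePow with h | h <;>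
      rcases neg_one_pow_eq_or ℤ m₂ with h' | h' <;> simp [h, h']
  rw [← mul_assoc, ← mul_assoc]
  rintro ⟨c, hc⟩
  rcases hu₁ with h₁ | h₁ <;> rcases hu₂ with h₂ | h₂ <;> rw [h₁, h₂] at hc <;>
    rcases abs_cases (x + y) with ⟨ha, _⟩ | ⟨ha, _⟩ <;>
    rcases abs_cases (x - y) with ⟨hb, _⟩ | ⟨hb, _⟩ <;> rw [ha, hb] at hc <;> omega

end Fermat.Agent.Eis
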