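/-
P11 / S16, package R (arithmetic half): bridge from the topology-free Euler product `rtE`
to the Prelude's `ModularCurve.etaProd` (a `tprod` in the pi-topology on `ℤ⟦X⟧`).
-/
import Fermat.Agent.Lib.Eis.ResTest.ResidueCoeff
import Fermat.Prelude.Def_ModularCurve_X0

namespace Fermat.Agent.Eis

open PowerSeries
open scoped PowerSeries.WithPiTopology

/-- The Prelude's `etaProd = ∏' n, (1 - X^(n+1))` is Euler's pentagonal series. -/
theorem rt_etaProd_eq_pentagonalSeries :
    ModularCurve.etaProd = PowerSeries.pentagonalSeries ℤ := by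
  rw [ModularCurve.etaProd]
  exact PowerSeries.WithPiTopology.tprod_one_sub_X_pow ℤ

/-- The topology-free Euler product `rtE` is the Prelude's `etaProd`. -/
theorem rtE_eq_etaProd : rtE = ModularCurve.etaProd := by
  rw [rt_etaProd_eq_pentagonalSeries, rtE_eq_pentagonalSeries]

/-- **Jacobi's identity** for the Prelude's `etaProd`:
`(∏ (1 - X^n))^3 = ∑_m (-1)^m (2m+1) X^(m(m+1)/2)`. -/
theorem rt_etaProd_pow_three : ModularCurve.etaProd ^ 3 = rtJ := by
  rw [← rtE_eq_etaProd, rtE_pow_three]

/-- **The residue test coefficient**, for the Prelude's `etaProd`: for a prime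
`p ≡ 7 mod 24`, the coefficient of `X^((p-1)/6)` in `etaProd^4` is not divisible by `8`. -/
theorem rt_not_eight_dvd_etaProd {p : ℕ} (hp : p.Prime) (h24 : p % 24 = 7) :
    ¬ (8 : ℤ) ∣ coeff ((p - 1) / 6) (ModularCurve.etaProd ^ 4) := by
  rw [← rtE_eq_etaProd]
  exact rt_not_eight_dvd hp h24

end Fermat.Agent.Eis
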