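/-
P11 / S16, package R: **the residue test**.  For a prime `p ≡ 7 mod 24` there is no cusp form
`f ∈ S₂(Γ₀(p))` with integral `q`-expansion congruent to the Eisenstein series modulo `2`.

Proof: `G = (24/(p-1)) (E - f) = 1 - (8/k) ∑ eₙ qⁿ` (`p = 6k + 1`, `k` odd), and the constant
term of `u₄ G` vanishes (`rtCT_rtU4_mul`); this gives `k · c_k = 8 · (integer)` where `c_k` is the
coefficient of `q^k` in `∏(1-qⁿ)⁴`, contradicting `rt_not_eight_dvd_etaProd`.
-/
import Mathlib
import Fermat.Agent.Lib.Eis.ResTest.TraceCT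
import Fermat.Agent.Lib.Eis.ResTest.CoeffExtract
import Fermat.Agent.Lib.Eis.ResTest.EtaProdBridge
import Fermat.Agent.Lib.Eis.Level.EisForm
import Fermat.Agent.Lib.Eis.Defs

set_option autoImplicit false

open ModularForm Complex ModularGroup CongruenceSubgroup Filter Topology ModularFormClass
open Fermat.Agent.S24Lib Fermat.Agent.ES
open UpperHalfPlane hiding I
open Matrix.SpecialLinearGroup
open scoped Real MatrixGroups ModularForm Manifold

namespace Fermat.Agent.Eis

variable (p : ℕ) [hpF : Fact p.Prime]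

local notation "Γ₀'" => (Subgroup.map (mapGL ℝ) (Gamma0 p))

/-- **(R)** the residue test: no Eisenstein congruence modulo `2` for `p ≡ 7 mod 24` -/
theorem not_eisCong_two_of_mod_eq_seven (hp : p % 24 = 7)
    (f : CuspForm (CongruenceSubgroup.Gamma0 p) 2) : ¬ EisCong p 2 f := by
  intro hf
  have hprime := hpF.out
  have : NeZero p := ⟨hprime.ne_zero⟩
  obtain ⟨k, hk⟩ : ∃ k, p = 6 * k + 1 := ⟨(p - 1) / 6, by omega⟩
  have hk0 : 0 < k := by omega
  have hkodd : k % 2 = 1 := by omega
  have hkp : k < p := by omega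
  have hkC : (k : ℂ) ≠ 0 := by exact_mod_cast hk0.ne'
  have hpC : (p : ℂ) - 1 = 6 * k := by
    rw [hk]; push_cast; ring
  choose mf hm hd using hf
  choose e he using hd
  have he' : ∀ n, (mf n : ℂ) - (eisCoeff p n : ℂ) = 2 * (e n : ℂ) := by
    intro n
    have := congrArg (Int.cast : ℤ → ℂ) (he n)
    push_cast at this
    exact this
  set G : ModularForm Γ₀' 2 :=
    (24 / ((p : ℂ) - 1)) • (eisForm p - CuspForm.toModularFormₗ f) with hGdef
  have hG : ∀ n, (qExpansion 1 ⇑G).coeff n =
      (if n = 0 then 1 else 0) - (8 / (k : ℂ)) * (e n : ℂ) := by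
    intro n
    have hL : (qExpansion 1 ⇑G).coeff n
        = (24 / ((p : ℂ) - 1)) * (qCoeff ⇑(eisForm p) n - (mf n : ℂ)) := by
      rw [hGdef, FunLike.coe_smul,
        ModularForm.qExpansion_smul one_pos (one_mem_strictPeriods_gamma0 p),
        PowerSeries.coeff_smul, smul_eq_mul, FunLike.coe_sub,
        ModularForm.qExpansion_sub one_pos (one_mem_strictPeriods_gamma0 p), map_sub, ← hm n]
      rfl
    rw [hL, hpC]
    rcases Nat.eq_zero_or_pos n with rfl | hn
    · rw [qCoeff_eisForm_zero, if_pos rfl, hpC]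
      have := he' 0
      rw [eisCoeff_zero] at this
      push_cast at this
      field_simp
      linear_combination (-24 : ℂ) * this
    · rw [qCoeff_eisForm p hn, if_neg (by omega)]
      have := he' n
      field_simp
      linear_combination (-24 : ℂ) * this
  have hCT := rtCT_rtU4_mul p hk hk0 G
  have hGn := rt_isNice_gamma0 p G
  rw [rtCT, qLaurent_mul (rt_qLaurent_rtU4 p hk).1 hGn.isQLaurentable,
    (rt_qLaurent_rtU4 p hk).2, qLaurent_of_nice hGn, Nat.cast_one,
    rt_coeff_zero_rtU4LS_mul p k hkp] at hCT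
  -- the integer identity
  set c : ℕ → ℤ := fun i => PowerSeries.coeff i (ModularCurve.etaProd ^ 4) with hc
  have hsum : ((c k : ℤ) : ℂ) -
      (8 / (k : ℂ)) * ((∑ ij ∈ Finset.HasAntidiagonal.antidiagonal k, c ij.1 * e ij.2 : ℤ) : ℂ) = 0 := by
    rw [← hCT]
    push_cast
    rw [Finset.mul_sum]
    have h1 : ((c k : ℤ) : ℂ) = ∑ ij ∈ Finset.HasAntidiagonal.antidiagonal k,
        ((c ij.1 : ℤ) : ℂ) * (if ij.2 = 0 then 1 else 0) := by
      rw [Finset.sum_eq_single (k, 0)]
      · simp
      · rintro ⟨i, j⟩ hij hne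
        have := Finset.HasAntidiagonal.mem_antidiagonal.mp hij
        have hj : j ≠ 0 := by
          rintro rfl
          apply hne
          simp only [add_zero] at this
          rw [this]
        simp [hj]
      · intro h
        exact absurd (Finset.HasAntidiagonal.mem_antidiagonal.mpr (by simp)) h
    rw [h1, ← Finset.sum_sub_distrib]
    refine Finset.sum_congr rfl fun ij _ => ?_
    rw [hG ij.2]
    ring
  have hint : (k : ℤ) * c k = 8 * ∑ ij ∈ Finset.HasAntidiagonal.antidiagonal k, c ij.1 * e ij.2 := by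
    have h2 : ((k : ℂ)) * ((c k : ℤ) : ℂ) = 8 *
        ((∑ ij ∈ Finset.HasAntidiagonal.antidiagonal k, c ij.1 * e ij.2 : ℤ) : ℂ) := by
      field_simp at hsum
      linear_combination hsum
    exact_mod_cast h2
  have hdvd : (8 : ℤ) ∣ (k : ℤ) * c k := ⟨_, hint⟩
  have hcop : IsCoprime (8 : ℤ) (k : ℤ) := by
    have h2 : IsCoprime (2 : ℤ) (k : ℤ) := by
      rw [Int.isCoprime_iff_gcd_eq_one]
      have : Nat.gcd 2 k = 1 := by
        rw [Nat.gcd_rec, hkodd]
        rfl
      simpa [Int.gcd] using this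
    have : IsCoprime ((2 : ℤ) ^ 3) (k : ℤ) := h2.pow_left
    norm_num at this
    exact this
  have h8 : (8 : ℤ) ∣ c k := hcop.dvd_of_dvd_mul_left hdvd
  have hkeq : k = (p - 1) / 6 := by omega
  apply rt_not_eight_dvd_etaProd hprime hp
  rw [← hkeq]
  exact h8

end Fermat.Agent.Eis
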