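/-
P11 / S16, package R (modular half), part 1: the constant-term functional on `q`-Laurent
expansions, and the vanishing of the constant term of `D g`.
-/
import Mathlib
import Fermat.Agent.Lib.ES.QLaurentDeriv

set_option autoImplicit false

namespace Fermat.Agent.Eis

open ModularForm Filter Topology Function Complex Derivative Fermat.Agent.ES
open UpperHalfPlane hiding I
open scoped ModularForm Manifold Real MatrixGroups

/-- the constant term of the `q`-Laurent expansion (period `1`) -/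
noncomputable def rtCT (g : ℍ → ℂ) : ℂ := (qLaurent 1 g).coeff 0

variable {g g₁ g₂ : ℍ → ℂ}

theorem rtCT_add (hg₁ : IsQLaurentable 1 g₁) (hg₂ : IsQLaurentable 1 g₂) :
    rtCT (fun z => g₁ z + g₂ z) = rtCT g₁ + rtCT g₂ := by
  rw [rtCT, qLaurent_add hg₁ hg₂, HahnSeries.coeff_add]
  rfl

theorem rtCT_sub (hg₁ : IsQLaurentable 1 g₁) (hg₂ : IsQLaurentable 1 g₂) :
    rtCT (fun z => g₁ z - g₂ z) = rtCT g₁ - rtCT g₂ := by
  rw [rtCT, qLaurent_sub hg₁ hg₂, HahnSeries.coeff_sub]
  rfl

theorem rtCT_const_mul (c : ℂ) (hg : IsQLaurentable 1 g) :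
    rtCT (fun z => c * g z) = c * rtCT g := by
  rw [rtCT, qLaurent_mul (IsQLaurentable.const 1 c) hg, qLaurent_const, HahnSeries.C_mul_eq_smul,
    HahnSeries.coeff_smul]
  rfl

theorem rtCT_D (hg : IsQLaurentable 1 g) : rtCT (D g) = 0 := by
  have h := (qLaurent_D hg).2 0
  rw [rtCT, h]
  simp

theorem rtCT_of_nice {F : ℍ → ℂ} (hF : IsNice ((1 : ℕ) : ℝ) F) :
    rtCT F = (qExpansion 1 F).coeff 0 := by
  rw [rtCT, qLaurent_of_nice hF]
  have := HahnSeries.ofPowerSeries_apply_coeff (Γ := ℤ) (qExpansion ((1 : ℕ) : ℝ) F) 0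
  simpa using this

theorem rtCT_congr {g' : ℍ → ℂ} (h : ∀ z, g z = g' z) : rtCT g = rtCT g' := by
  have : g = g' := funext h
  rw [this]

end Fermat.Agent.Eis
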