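import Fermat.Agent.Lib.Eis.ResTest.JacobiCube

/-!
# The coefficients of `∏ (1 - X^n)^4` (P11 / S16, package R-arith)

Euler (Mathlib's pentagonal number theorem) times Jacobi (`rtE_pow_three`).
-/

namespace Fermat.Agent.Eis

open PowerSeries Finset

/-- Our Euler product is Mathlib's `pentagonalSeries`. -/
theorem rtE_eq_pentagonalSeries : rtE = PowerSeries.pentagonalSeries ℤ := by
  ext n
  rw [coeff_rtE]
  have h := PowerSeries.coeff_prod_one_sub_X_pow_eventually_eq ℤ n
  rw [Filter.eventually_atTop] at h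
  obtain ⟨s₀, hs₀⟩ := h
  obtain ⟨m, hm⟩ : ∃ m, s₀ ⊆ range m ∧ n ≤ m := by
    refine ⟨max (s₀.sup id + 1) n, ?_, le_max_right _ _⟩
    intro i hi
    rw [Finset.mem_range]
    have : i ≤ s₀.sup id := Finset.le_sup (f := id) hi
    omega
  have := hs₀ (range m) hm.1
  rw [← this, ← coeff_rtPF_of_le hm.2]
  rfl

lemma rt_natAbs_le_pentagonal (k : ℤ) : k.natAbs ≤ pentagonal k := by
  have h2 := two_mul_natCast_pentagonal k
  zify
  rcases le_or_gt 0 k with h | h
  · rw [abs_of_nonneg h]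
    rcases eq_or_lt_of_le h with h0 | h0
    · rw [← h0]; positivity
    · nlinarith
  · rw [abs_of_neg h]
    nlinarith

/-- Euler's pentagonal number theorem, coefficientwise, as a sum over a box. -/
lemma coeff_rtE_eq_sum {i L : ℕ} (hL : i ≤ L) :
    coeff i rtE = ∑ k ∈ Finset.Icc (-(L : ℤ)) (L : ℤ),
      if pentagonal k = i then ((k.negOnePow : ℤˣ) : ℤ) else 0 := by
  rw [rtE_eq_pentagonalSeries]
  by_cases h : i ∈ Set.range pentagonal
  · obtain ⟨k₀, rfl⟩ := h
    rw [coeff_pentagonalSeries_pentagonal, Finset.sum_eq_single k₀]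
    · rw [if_pos rfl, Int.cast_id]
    · intro k _ hk
      rw [if_neg]
      exact fun h => hk (pentagonal_injective h)
    · intro hk
      exfalso
      apply hk
      rw [Finset.mem_Icc]
      have := rt_natAbs_le_pentagonal k₀
      omega
  · rw [coeff_pentagonalSeries_eq_zero ℤ h]
    symm
    apply Finset.sum_eq_zero
    intro k _
    rw [if_neg]
    exact fun hk => h ⟨k, hk⟩

/-- Jacobi's series, coefficientwise, as a sum over a range. -/
lemma coeff_rtJ_eq_sum {j L : ℕ} (hL : j + 1 ≤ L) :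
    coeff j rtJ = ∑ m ∈ range L,
      if m * (m + 1) / 2 = j then (-1) ^ m * (2 * (m : ℤ) + 1) else 0 := by
  rw [coeff_rtJ]
  apply Finset.sum_subset
  · intro m hm; rw [Finset.mem_range] at hm ⊢; omega
  · intro m _ hm
    rw [Finset.mem_range] at hm
    rw [if_neg]
    intro h
    have := rt_le_tri m
    omega

/-- **Coefficients of `∏ (1 - X^n)^4`**: a sum over the pairs `(k, m)` with
`k(3k-1)/2 + m(m+1)/2 = N`. -/
theorem coeff_rtE_pow_four (N : ℕ) :
    coeff N (rtE ^ 4) = ∑ k ∈ Finset.Icc (-(N : ℤ)) (N : ℤ), ∑ m ∈ range (N + 1),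
      if pentagonal k + m * (m + 1) / 2 = N then
        ((k.negOnePow : ℤˣ) : ℤ) * ((-1) ^ m * (2 * (m : ℤ) + 1)) else 0 := by
  rw [show rtE ^ 4 = rtE * rtE ^ 3 by ring, rtE_pow_three, coeff_mul]
  have h1 : ∀ p ∈ antidiagonal N, coeff p.1 rtE * coeff p.2 rtJ =
      ∑ k ∈ Finset.Icc (-(N : ℤ)) (N : ℤ), ∑ m ∈ range (N + 1),
        if pentagonal k = p.1 ∧ m * (m + 1) / 2 = p.2 then
          ((k.negOnePow : ℤˣ) : ℤ) * ((-1) ^ m * (2 * (m : ℤ) + 1)) else 0 := by
    intro p hp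
    rw [Finset.HasAntidiagonal.mem_antidiagonal] at hp
    rw [coeff_rtE_eq_sum (by omega : p.1 ≤ N), coeff_rtJ_eq_sum (by omega : p.2 + 1 ≤ N + 1),
      Finset.sum_mul_sum]
    refine Finset.sum_congr rfl fun k _ => Finset.sum_congr rfl fun m _ => ?_
    by_cases hk : pentagonal k = p.1 <;> by_cases hm : m * (m + 1) / 2 = p.2 <;> simp [hk, hm]
  rw [Finset.sum_congr rfl h1, Finset.sum_comm]
  refine Finset.sum_congr rfl fun k _ => ?_
  rw [Finset.sum_comm]
  refine Finset.sum_congr rfl fun m _ => ?_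
  by_cases h : pentagonal k + m * (m + 1) / 2 = N
  · rw [if_pos h, Finset.sum_eq_single (pentagonal k, m * (m + 1) / 2)]
    · rw [if_pos ⟨rfl, rfl⟩]
    · rintro ⟨a, b⟩ _ hne
      rw [if_neg]
      rintro ⟨rfl, rfl⟩
      exact hne rfl
    · intro hmem
      exact absurd (Finset.HasAntidiagonal.mem_antidiagonal.mpr h) hmem
  · rw [if_neg h]
    apply Finset.sum_eq_zero
    rintro ⟨a, b⟩ hab
    rw [Finset.HasAntidiagonal.mem_antidiagonal] at hab
    rw [if_neg]
    rintro ⟨rfl, rfl⟩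
    exact h hab

end Fermat.Agent.Eis
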