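import Fermat.Agent.Lib.Eis.ResTest.JacobiMoment

/-!
# Jacobi's identity `∏ (1 - X^n)^3 = ∑ (-1)^m (2m+1) X^(m(m+1)/2)` in `ℤ⟦X⟧`
(P11 / S16, package R-arith)

We transfer the finite moment identity of `JacobiMoment.lean` from the field `LaurentSeries ℚ`
to `ℤ⟦X⟧` and pass to the limit modulo `X^(M+1)`.
-/

namespace Fermat.Agent.Eis

open PowerSeries Finset

/-- finite Euler product `∏_{j<m} (1 - X^(j+1))` in `ℤ⟦X⟧`. -/
noncomputable def rtPF (m : ℕ) : ℤ⟦X⟧ := ∏ j ∈ range m, (1 - X ^ (j + 1))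

@[simp] lemma rtPF_zero : rtPF 0 = 1 := by simp [rtPF]

lemma rtPF_succ (m : ℕ) : rtPF (m + 1) = rtPF m * (1 - X ^ (m + 1)) := by
  simp [rtPF, prod_range_succ]

lemma constantCoeff_rtPF (m : ℕ) : constantCoeff (rtPF m) = 1 := by
  induction m with
  | zero => simp
  | succ m ih => rw [rtPF_succ, map_mul, ih]; simp

lemma isUnit_rtPF (m : ℕ) : IsUnit (rtPF m) := by
  rw [isUnit_iff_constantCoeff, constantCoeff_rtPF]; exact isUnit_one

/-- the inverse of `rtPF m`. -/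
noncomputable def rtIPF (m : ℕ) : ℤ⟦X⟧ := Ring.inverse (rtPF m)

lemma rtIPF_mul (m : ℕ) : rtIPF m * rtPF m = 1 := Ring.inverse_mul_cancel _ (isUnit_rtPF m)

/-- `(-1)^k X^(k(k+1)/2)` in `ℤ⟦X⟧`. -/
noncomputable def rtPS (k : ℤ) : ℤ⟦X⟧ :=
  ((k.negOnePow : ℤ) : ℤ⟦X⟧) * X ^ (k * (k + 1) / 2).toNat

lemma rt_tri_nonneg (k : ℤ) : 0 ≤ k * (k + 1) / 2 := by
  apply Int.ediv_nonneg _ (by norm_num)
  rcases le_or_gt 0 k with h | h
  · positivity
  · have h1 : k + 1 ≤ 0 := by omega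
    exact mul_nonneg_of_nonpos_of_nonpos h.le h1

/-- The embedding `ℤ⟦X⟧ → ℚ((X))`. -/
noncomputable def rtIota : ℤ⟦X⟧ →+* LaurentSeries ℚ :=
  (HahnSeries.ofPowerSeries ℤ ℚ).comp (PowerSeries.map (Int.castRingHom ℚ))

lemma rtIota_injective : Function.Injective rtIota := by
  have h1 : Function.Injective (PowerSeries.map (Int.castRingHom ℚ)) :=
    PowerSeries.map_injective _ Int.cast_injective
  intro a b h
  rw [rtIota, RingHom.comp_apply, RingHom.comp_apply] at h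
  exact h1 (HahnSeries.ofPowerSeries_injective h)

/-- the element `q = X` of `ℚ((X))`. -/
noncomputable def rtQ : LaurentSeries ℚ := rtIota X

lemma rtQ_ne_zero : rtQ ≠ 0 := by
  rw [rtQ, Ne, map_eq_zero_iff rtIota rtIota_injective]
  exact X_ne_zero

lemma rtQ_pow_ne_one (j : ℕ) (hj : 0 < j) : rtQ ^ j ≠ 1 := by
  rw [rtQ, ← map_pow, ← map_one rtIota, Ne, rtIota_injective.eq_iff]
  intro h
  have := congrArg (coeff 0) h
  rw [coeff_X_pow, coeff_one, if_neg hj.ne, if_pos rfl] at this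
  exact zero_ne_one this

lemma rtIota_rtPF (m : ℕ) : rtIota (rtPF m) = rtF rtQ m := by
  simp [rtPF, rtF, rtQ, map_prod]

lemma rtIota_rtIPF (m : ℕ) : rtIota (rtIPF m) = (rtF rtQ m)⁻¹ := by
  apply eq_inv_of_mul_eq_one_left
  rw [← rtIota_rtPF, ← map_mul, rtIPF_mul, map_one]

lemma rtIota_rtPS (k : ℤ) : rtIota (rtPS k) = rtS rtQ k := by
  rw [rtPS, rtS, map_mul, map_pow, map_intCast, Int.cast_negOnePow, ← rtQ]
  congr 1
  rw [← zpow_natCast, Int.toNat_of_nonneg (rt_tri_nonneg k)]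

/-- The finite Jacobi identity in `ℤ⟦X⟧`. -/
theorem rt_finite_jacobi (n : ℕ) :
    ∑ k ∈ Finset.Icc (-((n + 1 : ℕ) : ℤ)) ((n + 1 : ℕ) : ℤ),
        (k : ℤ⟦X⟧) * (rtPS k * rtPF (2 * (n + 1)) * rtIPF ((n + 1 : ℕ) + k).toNat
          * rtIPF ((n + 1 : ℕ) - k).toNat)
      = rtPF (n + 1) * rtPF n := by
  apply rtIota_injective
  rw [map_sum, map_mul, rtIota_rtPF, rtIota_rtPF,
    ← rt_sum_Icc_mul_rtG rtQ_ne_zero rtQ_pow_ne_one n]
  refine Finset.sum_congr rfl fun k hk => ?_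
  rw [Finset.mem_Icc] at hk
  rw [map_mul, map_intCast, map_mul, map_mul, map_mul, rtIota_rtPS, rtIota_rtPF, rtIota_rtIPF,
    rtIota_rtIPF, rtG]
  have h1 : (0 : ℤ) ≤ ((n + 1 : ℕ) : ℤ) + k := by omega
  have h2 : (0 : ℤ) ≤ ((n + 1 : ℕ) : ℤ) - k := by omega
  rw [rtInvF, if_pos h1, rtInvF, if_pos h2]

end Fermat.Agent.Eis

namespace Fermat.Agent.Eis

open PowerSeries Finset

/-! ### The Euler product and the limit -/

lemma coeff_rtPF_succ {n m : ℕ} (h : n ≤ m) : coeff n (rtPF (m + 1)) = coeff n (rtPF m) := by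
  rw [rtPF_succ, mul_sub, mul_one, map_sub, coeff_mul_X_pow', if_neg (by omega), sub_zero]

lemma coeff_rtPF_of_le {n m : ℕ} (h : n ≤ m) : coeff n (rtPF m) = coeff n (rtPF n) := by
  induction m, h using Nat.le_induction with
  | base => rfl
  | succ m hm ih => rw [coeff_rtPF_succ hm, ih]

/-- The Euler product `∏_{n ≥ 1} (1 - X^n)` (topology-free definition). -/
noncomputable def rtE : ℤ⟦X⟧ := PowerSeries.mk fun n => coeff n (rtPF n)

lemma coeff_rtE (n : ℕ) : coeff n rtE = coeff n (rtPF n) := by rw [rtE, coeff_mk]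

lemma X_pow_dvd_rtE_sub {M m : ℕ} (h : M ≤ m) : (X : ℤ⟦X⟧) ^ (M + 1) ∣ rtE - rtPF m := by
  rw [X_pow_dvd_iff]
  intro j hj
  rw [map_sub, coeff_rtE, coeff_rtPF_of_le (by omega : j ≤ m), sub_self]

lemma isUnit_rtE : IsUnit rtE := by
  rw [isUnit_iff_constantCoeff, ← coeff_zero_eq_constantCoeff_apply, coeff_rtE, rtPF_zero,
    coeff_zero_eq_constantCoeff_apply, map_one]
  exact isUnit_one

/-- inverse of the Euler product. -/
noncomputable def rtIE : ℤ⟦X⟧ := Ring.inverse rtE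

lemma rtIE_mul : rtIE * rtE = 1 := Ring.inverse_mul_cancel _ isUnit_rtE

lemma rt_sum_Icc_int {A : Type*} [AddCommMonoid A] (N : ℕ) (g : ℤ → A) :
    ∑ k ∈ Finset.Icc (-(N : ℤ)) (N : ℤ), g k
      = ∑ m ∈ range (N + 1), g (m : ℤ) + ∑ m ∈ range N, g (-(m : ℤ) - 1) := by
  induction N with
  | zero => simp
  | succ N ih =>
    have hIcc : Finset.Icc (-((N + 1 : ℕ) : ℤ)) ((N + 1 : ℕ) : ℤ)
        = insert (((N + 1 : ℕ) : ℤ)) (insert (-((N + 1 : ℕ) : ℤ)) (Finset.Icc (-(N : ℤ)) (N : ℤ))) := by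
      ext k
      simp only [Finset.mem_Icc, Finset.mem_insert]
      push_cast
      omega
    rw [hIcc, Finset.sum_insert, Finset.sum_insert, ih, Finset.sum_range_succ (fun m => g (m : ℤ)) (N + 1),
      Finset.sum_range_succ (fun m => g (-(m : ℤ) - 1)) N]
    · have : (-((N + 1 : ℕ) : ℤ)) = -(N : ℤ) - 1 := by push_cast; ring
      rw [this]
      abel
    · simp only [Finset.mem_Icc]; push_cast; omega
    · simp only [Finset.mem_insert, Finset.mem_Icc]; push_cast; omega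

lemma rt_tri_natCast (m : ℕ) : ((m : ℤ) * ((m : ℤ) + 1) / 2).toNat = m * (m + 1) / 2 := by
  have : ((m : ℤ) * ((m : ℤ) + 1) / 2) = ((m * (m + 1) / 2 : ℕ) : ℤ) := by push_cast; rfl
  rw [this, Int.toNat_natCast]

lemma rt_tri_neg (m : ℕ) : ((-(m : ℤ) - 1) * (-(m : ℤ) - 1 + 1) / 2).toNat = m * (m + 1) / 2 := by
  have : (-(m : ℤ) - 1) * (-(m : ℤ) - 1 + 1) = (m : ℤ) * ((m : ℤ) + 1) := by ring
  rw [this, rt_tri_natCast]

lemma rtPS_natCast (m : ℕ) : rtPS (m : ℤ) = ((-1) ^ m : ℤ⟦X⟧) * X ^ (m * (m + 1) / 2) := by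
  rw [rtPS, rt_tri_natCast, Int.cast_negOnePow_natCast]

lemma rtPS_neg (m : ℕ) : rtPS (-(m : ℤ) - 1) = -((-1) ^ m : ℤ⟦X⟧) * X ^ (m * (m + 1) / 2) := by
  rw [rtPS, rt_tri_neg]
  have : (-(m : ℤ) - 1) = -((m : ℤ) + 1) := by ring
  rw [this, Int.negOnePow_neg, Int.negOnePow_succ, Units.val_neg, Int.cast_neg,
    Int.cast_negOnePow_natCast]

/-- The Jacobi series `∑_{m ≥ 0} (-1)^m (2m+1) X^(m(m+1)/2)`. -/
noncomputable def rtJ : ℤ⟦X⟧ :=
  PowerSeries.mk fun j => ∑ m ∈ range (j + 1), if m * (m + 1) / 2 = j then (-1) ^ m * (2 * (m : ℤ) + 1) else 0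

lemma coeff_rtJ (j : ℕ) :
    coeff j rtJ = ∑ m ∈ range (j + 1), if m * (m + 1) / 2 = j then (-1) ^ m * (2 * (m : ℤ) + 1) else 0 := by
  rw [rtJ, coeff_mk]

lemma rt_le_tri (m : ℕ) : m ≤ m * (m + 1) / 2 := by
  rcases Nat.even_or_odd m with ⟨c, hc⟩ | ⟨c, hc⟩
  · subst hc
    have : (c + c) * (c + c + 1) / 2 = c * (2 * c + 1) := by
      rw [show (c + c) * (c + c + 1) = 2 * (c * (2 * c + 1)) by ring]
      exact Nat.mul_div_cancel_left _ (by norm_num)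
    rw [this]; nlinarith [Nat.zero_le c, Nat.zero_le (c * c)]
  · subst hc
    have : (2 * c + 1) * (2 * c + 1 + 1) / 2 = (2 * c + 1) * (c + 1) := by
      rw [show (2 * c + 1) * (2 * c + 1 + 1) = 2 * ((2 * c + 1) * (c + 1)) by ring]
      exact Nat.mul_div_cancel_left _ (by norm_num)
    rw [this]; nlinarith

/-- The symmetric partial sums `∑_{|k| ≤ N} k (-1)^k X^(k(k+1)/2)` have the coefficients of `rtJ`
in degrees `< N`. -/
lemma coeff_sum_Icc_rtPS {N j : ℕ} (hj : j + 1 < N) :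
    coeff j (∑ k ∈ Finset.Icc (-(N : ℤ)) (N : ℤ), (k : ℤ⟦X⟧) * rtPS k) = coeff j rtJ := by
  rw [rt_sum_Icc_int, Finset.sum_range_succ, map_add, map_add, map_sum, map_sum, coeff_rtJ]
  have hN : coeff j (((N : ℤ) : ℤ⟦X⟧) * rtPS (N : ℤ)) = 0 := by
    rw [rtPS_natCast, ← mul_assoc, coeff_mul_X_pow', if_neg]
    have := rt_le_tri N
    omega
  rw [hN, add_zero, ← Finset.sum_add_distrib]
  -- terms with m ≥ j + 1 vanish
  have hterm : ∀ m : ℕ, coeff j (((m : ℤ) : ℤ⟦X⟧) * rtPS (m : ℤ))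
      + coeff j (((-(m : ℤ) - 1 : ℤ) : ℤ⟦X⟧) * rtPS (-(m : ℤ) - 1))
      = if m * (m + 1) / 2 = j then (-1) ^ m * (2 * (m : ℤ) + 1) else 0 := by
    intro m
    rw [rtPS_natCast, rtPS_neg]
    have e1 : ((m : ℤ) : ℤ⟦X⟧) * ((-1) ^ m * X ^ (m * (m + 1) / 2))
        = C (((m : ℤ)) * (-1) ^ m) * X ^ (m * (m + 1) / 2) := by
      rw [map_mul, map_pow, map_neg, map_one]; simp [mul_assoc]
    have e2 : ((-(m : ℤ) - 1 : ℤ) : ℤ⟦X⟧) * (-(-1) ^ m * X ^ (m * (m + 1) / 2))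
        = C (((m : ℤ) + 1) * (-1) ^ m) * X ^ (m * (m + 1) / 2) := by
      rw [map_mul, map_pow, map_neg, map_one, map_add, map_one]
      push_cast
      simp only [map_natCast]
      ring
    rw [e1, e2, coeff_C_mul_X_pow, coeff_C_mul_X_pow]
    split_ifs with h1 h2 h2
    · ring
    · exact absurd h1.symm h2
    · exact absurd h2.symm h1
    · rfl
  rw [Finset.sum_congr rfl fun m _ => hterm m]
  -- compare ranges
  have hsub : range (j + 1) ⊆ range N := by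
    intro m hm; rw [Finset.mem_range] at hm ⊢; omega
  symm
  apply Finset.sum_subset hsub
  intro m hm hm'
  rw [Finset.mem_range] at hm hm'
  rw [if_neg]
  have := rt_le_tri m
  intro h
  rw [h] at this
  omega

/-! ### Passing to the limit modulo `X^(M+1)` -/

lemma rt_tri_ge_of_natAbs_ge {M : ℕ} {k : ℤ} (hk : M + 2 ≤ k.natAbs) :
    M + 1 ≤ (k * (k + 1) / 2).toNat := by
  have key : ∀ m : ℕ, M + 1 ≤ m → M + 1 ≤ m * (m + 1) / 2 := fun m hm => hm.trans (rt_le_tri m)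
  rcases le_or_gt 0 k with h | h
  · obtain ⟨m, rfl⟩ := Int.eq_ofNat_of_zero_le h
    rw [rt_tri_natCast]
    exact key m (by simpa using (by omega : M + 1 ≤ (m : ℤ).natAbs))
  · obtain ⟨m, rfl⟩ : ∃ m : ℕ, k = -(m : ℤ) - 1 := ⟨(-k - 1).toNat, by omega⟩
    rw [rt_tri_neg]
    exact key m (by omega)

lemma X_pow_dvd_rtPS {M : ℕ} {k : ℤ} (hk : M + 2 ≤ k.natAbs) : (X : ℤ⟦X⟧) ^ (M + 1) ∣ rtPS k := by
  rw [rtPS]
  exact Dvd.dvd.mul_left (pow_dvd_pow _ (rt_tri_ge_of_natAbs_ge hk)) _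

/-- **Jacobi's identity** modulo `X^(M+1)`. -/
theorem rt_jacobi_cube_mod (M : ℕ) :
    (X : ℤ⟦X⟧) ^ (M + 1) ∣ rtE ^ 3
      - ∑ k ∈ Finset.Icc (-((2 * M + 1 + 1 : ℕ) : ℤ)) ((2 * M + 1 + 1 : ℕ) : ℤ), (k : ℤ⟦X⟧) * rtPS k := by
  set I : Ideal ℤ⟦X⟧ := Ideal.span {(X : ℤ⟦X⟧) ^ (M + 1)} with hI
  set φ := Ideal.Quotient.mk I with hφ
  have hφ_eq : ∀ a b : ℤ⟦X⟧, (X : ℤ⟦X⟧) ^ (M + 1) ∣ a - b → φ a = φ b := by
    intro a b h
    rw [hφ, Ideal.Quotient.eq, hI, Ideal.mem_span_singleton]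
    exact h
  rw [← Ideal.mem_span_singleton, ← hI, ← Ideal.Quotient.eq, ← hφ]
  set e := φ rtE with he
  set e' := φ rtIE with he'
  have hee : e' * e = 1 := by rw [he, he', ← map_mul, rtIE_mul, map_one]
  have hPF : ∀ m, M ≤ m → φ (rtPF m) = e := fun m hm => (hφ_eq _ _ (X_pow_dvd_rtE_sub hm)).symm
  have hIPF : ∀ m, M ≤ m → φ (rtIPF m) = e' := by
    intro m hm
    calc φ (rtIPF m) = φ (rtIPF m) * (e * e') := by rw [mul_comm e e', hee, mul_one]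
      _ = φ (rtIPF m * rtPF m) * e' := by rw [map_mul, hPF m hm]; ring
      _ = e' := by rw [rtIPF_mul, map_one, one_mul]
  have hfin := congrArg φ (rt_finite_jacobi (2 * M + 1))
  rw [map_mul, hPF _ (by omega), hPF _ (by omega), map_sum] at hfin
  have hterm : ∀ k ∈ Finset.Icc (-((2 * M + 1 + 1 : ℕ) : ℤ)) ((2 * M + 1 + 1 : ℕ) : ℤ),
      φ ((k : ℤ⟦X⟧) * (rtPS k * rtPF (2 * (2 * M + 1 + 1)) * rtIPF (((2 * M + 1 + 1 : ℕ) : ℤ) + k).toNat
          * rtIPF (((2 * M + 1 + 1 : ℕ) : ℤ) - k).toNat))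
        = φ ((k : ℤ⟦X⟧) * rtPS k) * e' := by
    intro k hk
    rw [Finset.mem_Icc] at hk
    by_cases hkM : M + 2 ≤ k.natAbs
    · have h0 : φ (rtPS k) = 0 := by
        rw [hφ, Ideal.Quotient.eq_zero_iff_mem, hI, Ideal.mem_span_singleton]
        exact X_pow_dvd_rtPS hkM
      simp only [map_mul, h0, zero_mul, mul_zero]
    · have h1 : M ≤ (((2 * M + 1 + 1 : ℕ) : ℤ) + k).toNat := by omega
      have h2 : M ≤ (((2 * M + 1 + 1 : ℕ) : ℤ) - k).toNat := by omega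
      simp only [map_mul]
      rw [hIPF _ h1, hIPF _ h2, hPF _ (by omega)]
      calc φ (k : ℤ⟦X⟧) * (φ (rtPS k) * e * e' * e') = φ (k : ℤ⟦X⟧) * φ (rtPS k) * e' * (e' * e) := by ring
        _ = _ := by rw [hee, mul_one]
  rw [Finset.sum_congr rfl hterm, ← Finset.sum_mul, ← map_sum] at hfin
  calc φ (rtE ^ 3) = e * e * e := by rw [map_pow, ← he]; ring
    _ = φ (∑ k ∈ Finset.Icc (-((2 * M + 1 + 1 : ℕ) : ℤ)) ((2 * M + 1 + 1 : ℕ) : ℤ), (k : ℤ⟦X⟧) * rtPS k)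
          * (e' * e) := by rw [← hfin]; ring
    _ = _ := by rw [hee, mul_one]

/-- **Jacobi's identity** `(∏_{n ≥ 1} (1 - X^n))^3 = ∑_{m ≥ 0} (-1)^m (2m+1) X^(m(m+1)/2)`. -/
theorem rtE_pow_three : rtE ^ 3 = rtJ := by
  ext j
  have h := rt_jacobi_cube_mod j
  rw [X_pow_dvd_iff] at h
  have hj := h j (Nat.lt_succ_self j)
  rw [map_sub, sub_eq_zero] at hj
  rw [hj]
  exact coeff_sum_Icc_rtPS (by omega)

end Fermat.Agent.Eis
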