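import Mathlib

/-!
# Finite form of Jacobi's triple product, moment version (P11 / S16, package R-arith)

For a field `K` and `q : K` with `q ≠ 0`, `q ^ j ≠ 1` (`j ≥ 1`) we put
`rtF m = ∏_{j<m} (1 - q^(j+1))` and, for `N : ℕ`, `k : ℤ`,
`rtG N k = (-1)^k q^(k(k+1)/2) F(2N) / (F(N+k) F(N-k))` (zero when `|k| > N`).
These are the coefficients of `∏_{n=1}^N (1 - z q^n)(1 - z⁻¹ q^(n-1))`; we only need
the three-term recursion in `N` and the resulting first moment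
`∑_k k · rtG N k = F(N) F(N-1)`.
-/

namespace Fermat.Agent.Eis

open Finset

section Field

variable {K : Type*} [Field K] (q : K)

/-- `rtF q m = ∏_{j<m} (1 - q^(j+1))`. -/
noncomputable def rtF (m : ℕ) : K := ∏ j ∈ range m, (1 - q ^ (j + 1))

@[simp] lemma rtF_zero : rtF q 0 = 1 := by simp [rtF]

lemma rtF_succ (m : ℕ) : rtF q (m + 1) = rtF q m * (1 - q ^ (m + 1)) := by
  simp [rtF, prod_range_succ]

variable {q}

lemma rtF_ne_zero (hq : ∀ j : ℕ, 0 < j → q ^ j ≠ 1) (m : ℕ) : rtF q m ≠ 0 := by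
  rw [rtF, prod_ne_zero_iff]
  intro j _
  exact sub_ne_zero.mpr (Ne.symm (hq (j + 1) (Nat.succ_pos j)))

variable (q)

/-- `1 / F(m)` extended by zero to negative integers. -/
noncomputable def rtInvF (m : ℤ) : K := if 0 ≤ m then (rtF q m.toNat)⁻¹ else 0

lemma rtInvF_of_neg {m : ℤ} (h : m < 0) : rtInvF q m = 0 := by
  simp [rtInvF, not_le.mpr h]

lemma rtInvF_natCast (m : ℕ) : rtInvF q (m : ℤ) = (rtF q m)⁻¹ := by
  simp [rtInvF]

variable {q}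

/-- The uniform recursion `1/F(m-1) = (1 - q^m)/F(m)`, valid for all integers `m`. -/
lemma rtInvF_sub_one (hq : ∀ j : ℕ, 0 < j → q ^ j ≠ 1) (m : ℤ) :
    rtInvF q (m - 1) = (1 - q ^ m) * rtInvF q m := by
  rcases lt_trichotomy m 0 with h | h | h
  · rw [rtInvF_of_neg q h, rtInvF_of_neg q (by omega), mul_zero]
  · subst h
    rw [rtInvF_of_neg q (by norm_num), zpow_zero, sub_self, zero_mul]
  · obtain ⟨n, rfl⟩ : ∃ n : ℕ, m = (n : ℤ) + 1 := ⟨(m - 1).toNat, by omega⟩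
    have h1 : ((n : ℤ) + 1 - 1) = (n : ℤ) := by ring
    have h2 : ((n : ℤ) + 1) = ((n + 1 : ℕ) : ℤ) := by push_cast; ring
    rw [h1, rtInvF_natCast, h2, rtInvF_natCast, rtF_succ, zpow_natCast, mul_inv]
    have hne : (1 - q ^ (n + 1)) ≠ 0 := sub_ne_zero.mpr (Ne.symm (hq (n + 1) (Nat.succ_pos n)))
    field_simp

variable (q)

/-- `(-1)^k q^(k(k+1)/2)`. -/
noncomputable def rtS (k : ℤ) : K := (-1) ^ k * q ^ (k * (k + 1) / 2)

/-- The coefficient of `z^k` in `∏_{n=1}^N (1 - z q^n)(1 - z⁻¹ q^(n-1))`. -/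
noncomputable def rtG (N : ℕ) (k : ℤ) : K :=
  rtS q k * rtF q (2 * N) * rtInvF q (N + k) * rtInvF q (N - k)

lemma rtG_eq_zero_of_lt {N : ℕ} {k : ℤ} (h : (N : ℤ) < k) : rtG q N k = 0 := by
  rw [rtG, rtInvF_of_neg q (by omega : (N : ℤ) - k < 0), mul_zero]

lemma rtG_eq_zero_of_lt_neg {N : ℕ} {k : ℤ} (h : k < -(N : ℤ)) : rtG q N k = 0 := by
  rw [rtG, rtInvF_of_neg q (by omega : (N : ℤ) + k < 0), mul_zero, zero_mul]

lemma rtG_zero (k : ℤ) : rtG q 0 k = if k = 0 then 1 else 0 := by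
  split_ifs with h
  · subst h; simp [rtG, rtS, rtInvF]
  · rcases lt_or_gt_of_ne h with h | h
    · exact rtG_eq_zero_of_lt_neg q (by simpa using h)
    · exact rtG_eq_zero_of_lt q (by simpa using h)

variable {q}

private lemma tri_sub_one (k : ℤ) : (k - 1) * (k - 1 + 1) / 2 = k * (k + 1) / 2 - k := by
  have h1 : (k - 1) * (k - 1 + 1) = k * (k + 1) - 2 * k := by ring
  have h2 : (2 : ℤ) ∣ k * (k + 1) := by
    have := Int.even_mul_succ_self k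
    exact even_iff_two_dvd.mp this
  obtain ⟨c, hc⟩ := h2
  rw [h1, hc, ← mul_sub, Int.mul_ediv_cancel_left _ two_ne_zero,
    Int.mul_ediv_cancel_left _ two_ne_zero]

private lemma tri_add_one (k : ℤ) : (k + 1) * (k + 1 + 1) / 2 = k * (k + 1) / 2 + (k + 1) := by
  have h1 : (k + 1) * (k + 1 + 1) = k * (k + 1) + 2 * (k + 1) := by ring
  have h2 : (2 : ℤ) ∣ k * (k + 1) := by
    have := Int.even_mul_succ_self k
    exact even_iff_two_dvd.mp this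
  obtain ⟨c, hc⟩ := h2
  rw [h1, hc, ← mul_add, Int.mul_ediv_cancel_left _ two_ne_zero,
    Int.mul_ediv_cancel_left _ two_ne_zero]

lemma rtS_sub_one (hq0 : q ≠ 0) (k : ℤ) : rtS q (k - 1) = -(rtS q k * (q ^ k)⁻¹) := by
  rw [rtS, rtS, tri_sub_one, zpow_sub₀ hq0, zpow_sub₀ (by norm_num : (-1 : K) ≠ 0), zpow_one]
  field_simp

lemma rtS_add_one (hq0 : q ≠ 0) (k : ℤ) : rtS q (k + 1) = -(rtS q k * q ^ (k + 1)) := by
  rw [rtS, rtS, tri_add_one, zpow_add₀ hq0, zpow_add₀ (by norm_num : (-1 : K) ≠ 0), zpow_one]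
  ring

private lemma zpow_pred_eq {q : K} (hq0 : q ≠ 0) (m : ℤ) : q ^ (m - 1) = q ^ m * q⁻¹ := by
  rw [zpow_sub₀ hq0, zpow_one, div_eq_mul_inv]

/-- The polynomial identity behind the recursion. -/
private lemma rt_poly_identity (s F U V A B t : K) :
    s * (F * (1 - A * B * t) * (1 - A * B)) * U * V
      = (1 + A * B * t) * (s * F * ((1 - A) * U) * ((1 - B) * V))
        - (-(s * B)) * F * ((1 - A * t) * ((1 - A) * U)) * V
        - (-(s * A)) * F * U * ((1 - B * t) * ((1 - B) * V)) := by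
  ring

/-- The three-term recursion (multiplication by `(1 - z q^(N+1))(1 - z⁻¹ q^N)`). -/
theorem rtG_succ (hq0 : q ≠ 0) (hq : ∀ j : ℕ, 0 < j → q ^ j ≠ 1) (N : ℕ) (k : ℤ) :
    rtG q (N + 1) k =
      (1 + q ^ (2 * N + 1)) * rtG q N k - q ^ (N + 1) * rtG q N (k - 1)
        - q ^ N * rtG q N (k + 1) := by
  have e1 : rtInvF q ((N : ℤ) + k) = (1 - q ^ ((N : ℤ) + 1 + k)) * rtInvF q ((N : ℤ) + 1 + k) := by
    have := rtInvF_sub_one hq ((N : ℤ) + 1 + k)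
    rwa [show (N : ℤ) + 1 + k - 1 = N + k by ring] at this
  have e2 : rtInvF q ((N : ℤ) - k) = (1 - q ^ ((N : ℤ) + 1 - k)) * rtInvF q ((N : ℤ) + 1 - k) := by
    have := rtInvF_sub_one hq ((N : ℤ) + 1 - k)
    rwa [show (N : ℤ) + 1 - k - 1 = N - k by ring] at this
  have hAt : q ^ ((N : ℤ) + k) = q ^ ((N : ℤ) + 1 + k) * q⁻¹ := by
    rw [← zpow_pred_eq hq0]; congr 1; ring
  have hBt : q ^ ((N : ℤ) - k) = q ^ ((N : ℤ) + 1 - k) * q⁻¹ := by
    rw [← zpow_pred_eq hq0]; congr 1; ring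
  have e3 : rtInvF q ((N : ℤ) + (k - 1)) = (1 - q ^ ((N : ℤ) + 1 + k) * q⁻¹) *
      ((1 - q ^ ((N : ℤ) + 1 + k)) * rtInvF q ((N : ℤ) + 1 + k)) := by
    have := rtInvF_sub_one hq ((N : ℤ) + k)
    rw [show (N : ℤ) + k - 1 = N + (k - 1) by ring] at this
    rw [this, hAt, e1]
  have e4 : rtInvF q ((N : ℤ) - (k - 1)) = rtInvF q ((N : ℤ) + 1 - k) := by
    congr 1; ring
  have e5 : rtInvF q ((N : ℤ) + (k + 1)) = rtInvF q ((N : ℤ) + 1 + k) := by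
    congr 1; ring
  have e6 : rtInvF q ((N : ℤ) - (k + 1)) = (1 - q ^ ((N : ℤ) + 1 - k) * q⁻¹) *
      ((1 - q ^ ((N : ℤ) + 1 - k)) * rtInvF q ((N : ℤ) + 1 - k)) := by
    have := rtInvF_sub_one hq ((N : ℤ) - k)
    rw [show (N : ℤ) - k - 1 = N - (k + 1) by ring] at this
    rw [this, hBt, e2]
  have hAB : q ^ ((N : ℤ) + 1 + k) * q ^ ((N : ℤ) + 1 - k) = q ^ (2 * N + 2) := by
    rw [← zpow_add₀ hq0, ← zpow_natCast]
    congr 1; push_cast; ring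
  have hABt : q ^ (2 * N + 1) = q ^ ((N : ℤ) + 1 + k) * q ^ ((N : ℤ) + 1 - k) * q⁻¹ := by
    rw [hAB, pow_succ (n := 2 * N + 1), mul_assoc, mul_inv_cancel₀ hq0, mul_one]
  have hqB : q ^ (N + 1) * (q ^ k)⁻¹ = q ^ ((N : ℤ) + 1 - k) := by
    rw [sub_eq_add_neg, zpow_add₀ hq0, zpow_neg, ← zpow_natCast]
    congr 2
  have hqA : q ^ N * q ^ (k + 1) = q ^ ((N : ℤ) + 1 + k) := by
    rw [← zpow_natCast, ← zpow_add₀ hq0]
    congr 1; ring
  have hF : rtF q (2 * (N + 1)) = rtF q (2 * N) *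
      (1 - q ^ ((N : ℤ) + 1 + k) * q ^ ((N : ℤ) + 1 - k) * q⁻¹) *
      (1 - q ^ ((N : ℤ) + 1 + k) * q ^ ((N : ℤ) + 1 - k)) := by
    rw [show 2 * (N + 1) = 2 * N + 1 + 1 by ring, rtF_succ, rtF_succ, hABt,
      show 2 * N + 1 + 1 = 2 * N + 2 by ring, hAB]
  have g0 : rtG q (N + 1) k = rtS q k * rtF q (2 * (N + 1)) * rtInvF q ((N : ℤ) + 1 + k) *
      rtInvF q ((N : ℤ) + 1 - k) := by
    rw [rtG]; push_cast; rfl
  have h7 : q ^ (N + 1) * (rtS q (k - 1) * rtF q (2 * N) * rtInvF q ((N : ℤ) + (k - 1)) *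
      rtInvF q ((N : ℤ) - (k - 1))) = (-(rtS q k * q ^ ((N : ℤ) + 1 - k))) * rtF q (2 * N) *
      rtInvF q ((N : ℤ) + (k - 1)) * rtInvF q ((N : ℤ) - (k - 1)) := by
    rw [rtS_sub_one hq0, ← hqB]; ring
  have h8 : q ^ N * (rtS q (k + 1) * rtF q (2 * N) * rtInvF q ((N : ℤ) + (k + 1)) *
      rtInvF q ((N : ℤ) - (k + 1))) = (-(rtS q k * q ^ ((N : ℤ) + 1 + k))) * rtF q (2 * N) *
      rtInvF q ((N : ℤ) + (k + 1)) * rtInvF q ((N : ℤ) - (k + 1)) := by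
    rw [rtS_add_one hq0, ← hqA]; ring
  rw [g0, rtG, rtG, rtG, h7, h8, e1, e2, e3, e4, e5, e6, hF, hABt]
  exact rt_poly_identity _ _ _ _ _ _ _

end Field

end Fermat.Agent.Eis
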