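import Fermat.Agent.Lib.Eis.ResTest.JacobiFinite

/-!
# Moments of the finite Jacobi triple product (P11 / S16, package R-arith)

`∑_k rtG N k = 0` (`N ≥ 1`) and `∑_k k · rtG N k = F(N) F(N-1)` (`N ≥ 1`).
-/

namespace Fermat.Agent.Eis

open Finset Function

section Field

variable {K : Type*} [Field K] {q : K}

lemma rtG_support_subset (N : ℕ) :
    support (rtG q N) ⊆ ((Finset.Icc (-(N : ℤ)) N : Finset ℤ) : Set ℤ) := by
  intro k hk
  rw [mem_support] at hk
  simp only [coe_Icc, Set.mem_Icc]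
  by_contra h
  rw [not_and_or, not_le, not_le] at h
  rcases h with h | h
  · exact hk (rtG_eq_zero_of_lt_neg q h)
  · exact hk (rtG_eq_zero_of_lt q h)

lemma rtG_hasFiniteSupport (N : ℕ) : HasFiniteSupport (rtG q N) :=
  (Finset.finite_toSet _).subset (rtG_support_subset N)

lemma rt_hasFiniteSupport_mul {f : ℤ → K} (hf : HasFiniteSupport f) (c : ℤ → K) :
    HasFiniteSupport fun k => c k * f k :=
  hf.subset fun k hk => by
    rw [mem_support] at hk ⊢
    exact fun h => hk (by rw [h, mul_zero])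

lemma rt_hasFiniteSupport_shift {f : ℤ → K} (hf : HasFiniteSupport f) (a : ℤ) :
    HasFiniteSupport fun k => f (k + a) := by
  have : (support fun k => f (k + a)) = (Equiv.addRight a) ⁻¹' support f := by
    ext k; simp
  rw [HasFiniteSupport, this]
  exact Set.Finite.preimage (Equiv.injective _).injOn hf

/-- zeroth moment -/
noncomputable def rtM0 (q : K) (N : ℕ) : K := ∑ᶠ k : ℤ, rtG q N k

/-- first moment -/
noncomputable def rtM1 (q : K) (N : ℕ) : K := ∑ᶠ k : ℤ, (k : K) * rtG q N k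

lemma rt_finsum_shift (f : ℤ → K) (a : ℤ) : ∑ᶠ k : ℤ, f (k + a) = ∑ᶠ k : ℤ, f k :=
  finsum_comp_equiv (Equiv.addRight a) (f := f)

lemma rt_finsum_sub_sub {f g h : ℤ → K} (hf : HasFiniteSupport f) (hg : HasFiniteSupport g)
    (hh : HasFiniteSupport h) :
    ∑ᶠ k : ℤ, (f k - g k - h k) = ∑ᶠ k : ℤ, f k - ∑ᶠ k : ℤ, g k - ∑ᶠ k : ℤ, h k := by
  have hfg : HasFiniteSupport fun k => f k - g k := by
    refine (hf.union hg).subset fun k hk => ?_
    rw [mem_support] at hk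
    by_contra hcon
    rw [Set.mem_union, mem_support, mem_support, not_or, not_not, not_not] at hcon
    exact hk (by rw [hcon.1, hcon.2, sub_zero])
  rw [finsum_sub_distrib (f := fun k => f k - g k) (g := h) hfg hh,
    finsum_sub_distrib (f := f) (g := g) hf hg]

lemma rtM0_zero : rtM0 q 0 = 1 := by
  rw [rtM0, finsum_eq_sum_of_support_subset _ (rtG_support_subset 0)]
  simp [rtG_zero]

lemma rtM1_zero : rtM1 q 0 = 0 := by
  rw [rtM1]
  have : (fun k : ℤ => (k : K) * rtG q 0 k) = fun _ => 0 := by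
    funext k
    rw [rtG_zero]
    split_ifs with h
    · subst h; simp
    · simp
  rw [this, finsum_zero]

theorem rtM0_succ (hq0 : q ≠ 0) (hq : ∀ j : ℕ, 0 < j → q ^ j ≠ 1) (N : ℕ) :
    rtM0 q (N + 1) = (1 - q ^ N) * (1 - q ^ (N + 1)) * rtM0 q N := by
  have hf := rtG_hasFiniteSupport (q := q) N
  have h1 : HasFiniteSupport fun k : ℤ => (1 + q ^ (2 * N + 1)) * rtG q N k :=
    rt_hasFiniteSupport_mul hf _
  have h2 : HasFiniteSupport fun k : ℤ => q ^ (N + 1) * rtG q N (k - 1) :=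
    rt_hasFiniteSupport_mul (rt_hasFiniteSupport_shift hf (-1)) _
  have h3 : HasFiniteSupport fun k : ℤ => q ^ N * rtG q N (k + 1) :=
    rt_hasFiniteSupport_mul (rt_hasFiniteSupport_shift hf 1) _
  rw [rtM0]
  simp_rw [rtG_succ hq0 hq]
  rw [rt_finsum_sub_sub h1 h2 h3, ← mul_finsum, ← mul_finsum, ← mul_finsum]
  have e1 : ∑ᶠ k : ℤ, rtG q N (k - 1) = rtM0 q N := rt_finsum_shift (rtG q N) (-1)
  have e2 : ∑ᶠ k : ℤ, rtG q N (k + 1) = rtM0 q N := rt_finsum_shift (rtG q N) 1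
  rw [e1, e2, ← rtM0]
  ring

theorem rtM1_succ (hq0 : q ≠ 0) (hq : ∀ j : ℕ, 0 < j → q ^ j ≠ 1) (N : ℕ) :
    rtM1 q (N + 1) = (1 - q ^ N) * (1 - q ^ (N + 1)) * rtM1 q N
      + (q ^ N - q ^ (N + 1)) * rtM0 q N := by
  have hf := rtG_hasFiniteSupport (q := q) N
  have hkf : HasFiniteSupport fun k : ℤ => (k : K) * rtG q N k := rt_hasFiniteSupport_mul hf _
  have h1 : HasFiniteSupport fun k : ℤ => (1 + q ^ (2 * N + 1)) * ((k : K) * rtG q N k) :=
    rt_hasFiniteSupport_mul hkf _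
  have hs2 : HasFiniteSupport fun k : ℤ => (k : K) * rtG q N (k - 1) :=
    rt_hasFiniteSupport_mul (rt_hasFiniteSupport_shift hf (-1)) _
  have hs3 : HasFiniteSupport fun k : ℤ => (k : K) * rtG q N (k + 1) :=
    rt_hasFiniteSupport_mul (rt_hasFiniteSupport_shift hf 1) _
  have h2 : HasFiniteSupport fun k : ℤ => q ^ (N + 1) * ((k : K) * rtG q N (k - 1)) :=
    rt_hasFiniteSupport_mul hs2 _
  have h3 : HasFiniteSupport fun k : ℤ => q ^ N * ((k : K) * rtG q N (k + 1)) :=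
    rt_hasFiniteSupport_mul hs3 _
  have expand : ∀ k : ℤ, (k : K) * rtG q (N + 1) k =
      (1 + q ^ (2 * N + 1)) * ((k : K) * rtG q N k) - q ^ (N + 1) * ((k : K) * rtG q N (k - 1))
        - q ^ N * ((k : K) * rtG q N (k + 1)) := by
    intro k; rw [rtG_succ hq0 hq]; ring
  rw [rtM1]
  simp_rw [expand]
  rw [rt_finsum_sub_sub h1 h2 h3, ← mul_finsum, ← mul_finsum, ← mul_finsum]
  -- shifted first moments
  have e1 : ∑ᶠ k : ℤ, (k : K) * rtG q N (k - 1) = rtM1 q N + rtM0 q N := by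
    have := rt_finsum_shift (fun k : ℤ => (k : K) * rtG q N (k - 1)) 1
    rw [← this]
    have hfun : (fun k : ℤ => ((k + 1 : ℤ) : K) * rtG q N (k + 1 - 1)) =
        fun k : ℤ => (k : K) * rtG q N k + rtG q N k := by
      funext k; rw [add_sub_cancel_right]; push_cast; ring
    rw [hfun, finsum_add_distrib hkf hf, rtM1, rtM0]
  have e2 : ∑ᶠ k : ℤ, (k : K) * rtG q N (k + 1) = rtM1 q N - rtM0 q N := by
    have := rt_finsum_shift (fun k : ℤ => (k : K) * rtG q N (k + 1)) (-1)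
    rw [← this]
    have hfun : (fun k : ℤ => ((k + -1 : ℤ) : K) * rtG q N (k + -1 + 1)) =
        fun k : ℤ => (k : K) * rtG q N k - rtG q N k := by
      funext k; rw [neg_add_cancel_right]; push_cast; ring
    rw [hfun, finsum_sub_distrib hkf hf, rtM1, rtM0]
  rw [e1, e2, ← rtM1]
  ring

theorem rtM0_eq_zero (hq0 : q ≠ 0) (hq : ∀ j : ℕ, 0 < j → q ^ j ≠ 1) {N : ℕ} (hN : 1 ≤ N) :
    rtM0 q N = 0 := by
  induction N, hN using Nat.le_induction with
  | base => rw [rtM0_succ hq0 hq 0, pow_zero, sub_self, zero_mul, zero_mul]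
  | succ n _ ih => rw [rtM0_succ hq0 hq n, ih, mul_zero]

/-- `∑_k k · rtG N k = F(N) F(N-1)` for `N ≥ 1` (written with `N = n + 1`). -/
theorem rtM1_succ_eq (hq0 : q ≠ 0) (hq : ∀ j : ℕ, 0 < j → q ^ j ≠ 1) (n : ℕ) :
    rtM1 q (n + 1) = rtF q (n + 1) * rtF q n := by
  induction n with
  | zero =>
    rw [rtM1_succ hq0 hq 0, rtM1_zero, rtM0_zero, rtF_succ, rtF_zero]
    ring
  | succ n ih =>
    rw [rtM1_succ hq0 hq (n + 1), ih, rtM0_eq_zero hq0 hq (Nat.succ_pos n), mul_zero, add_zero,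
      rtF_succ q (n + 1), rtF_succ q n]
    ring

/-- The finite Jacobi identity as a `Finset` sum. -/
theorem rt_sum_Icc_mul_rtG (hq0 : q ≠ 0) (hq : ∀ j : ℕ, 0 < j → q ^ j ≠ 1) (n : ℕ) :
    ∑ k ∈ Finset.Icc (-((n + 1 : ℕ) : ℤ)) ((n + 1 : ℕ) : ℤ), (k : K) * rtG q (n + 1) k
      = rtF q (n + 1) * rtF q n := by
  rw [← rtM1_succ_eq hq0 hq n, rtM1]
  symm
  apply finsum_eq_sum_of_support_subset
  intro k hk
  apply rtG_support_subset (q := q) (n + 1)
  rw [mem_support] at hk ⊢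
  exact fun h => hk (by rw [h, mul_zero])

end Field

end Fermat.Agent.Eis
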