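/-
P11 / S16, package R (modular half), part 2: a weakly holomorphic modular form of weight `2` and
level one has vanishing constant term.  In the form: for `T ∈ M_{12m+2}(SL(2,ℤ))`, the constant
term of the `q`-Laurent expansion of `T / Δ^m` is zero.

Proof: induction on `m`; `M₂ = 0`; `∂_{12m}(E₄^{3m}) = D(j^m) Δ^m` has constant term `-m ≠ 0`
and `D(j^m)` has vanishing constant term; subtracting a multiple leaves a cusp form `Δ T'`.
-/
import Mathlib
import Fermat.Agent.Lib.Eis.ResTest.ConstTerm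
import Fermat.Agent.Lib.S24.JDeriv
import Fermat.Agent.Lib.S24.JLaurent

set_option autoImplicit false

namespace Fermat.Agent.Eis

open ModularForm Filter Topology Function Complex Derivative Fermat.Agent.ES Fermat.Agent.S24Lib
open UpperHalfPlane hiding I
open scoped ModularForm Manifold Real MatrixGroups

local notation "Δ" => ModularForm.discriminant

/-- a level one modular form is nice -/
theorem rt_isNice_levelOne {k : ℤ} (T : ModularForm 𝒮ℒ k) : IsNice ((1 : ℕ) : ℝ) (T : ℍ → ℂ) where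
  mdiff := ModularFormClass.holo T
  periodic z := by
    have hmem : (((1 : ℕ) : ℝ)) ∈ (𝒮ℒ).strictPeriods := by
      simp only [Subgroup.strictPeriods_SL2Z, AddSubgroup.mem_zmultiples_iff]
      exact ⟨1, by simp⟩
    exact SlashInvariantForm.vAdd_apply_of_mem_strictPeriods T z hmem
  bdd := ModularFormClass.bdd_at_infty T

theorem rt_isQLaurentable_inv_discriminant_pow (m : ℕ) :
    IsQLaurentable 1 (fun z : ℍ => (Δ z ^ m)⁻¹) where
  mdiff := by
    have h : MDiff (fun z : ℍ => (1 : ℂ) / Δ z ^ m) :=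
      (mdifferentiable_const (c := (1 : ℂ))).div (mdiff_discriminant.pow m)
        (fun z => pow_ne_zero m (discriminant_ne_zero z))
    simpa [one_div] using h
  periodic z := by rw [discriminant_vadd_nat]
  mero := by
    refine ⟨m, ?_⟩
    refine isBoundedAtImInfty_congr (f := fun _ : ℍ => (1 : ℂ))
      (Filter.const_boundedAtFilter _ (1 : ℂ)) (fun z => ?_)
    rw [inv_mul_cancel₀ (pow_ne_zero m (discriminant_ne_zero z))]

theorem rt_isQLaurentable_div {k : ℤ} (T : ModularForm 𝒮ℒ k) (m : ℕ) :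
    IsQLaurentable 1 (fun z : ℍ => T z / Δ z ^ m) := by
  have := (rt_isNice_levelOne T).isQLaurentable.mul (rt_isQLaurentable_inv_discriminant_pow m)
  simpa [div_eq_mul_inv] using this

/-- `E₂` is nice. -/
theorem rt_isNice_E2 : IsNice ((1 : ℕ) : ℝ) EisensteinSeries.E2 where
  mdiff := E2_mdifferentiable
  periodic z := by
    have h := fun w : ℍ => EisensteinSeries.E2_eq_tsum_cexp (z := w)
    rw [h, h]
    congr 2
    refine tsum_congr fun n => ?_
    congr 2
    simp only [UpperHalfPlane.coe_vadd]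
    have : 2 * ↑π * I * ((((1 : ℕ) : ℝ) : ℂ) + (z : ℂ)) = 2 * ↑π * I * (z : ℂ) + 2 * ↑π * I := by
      push_cast; ring
    rw [this, Complex.exp_add, Complex.exp_two_pi_mul_I, mul_one]
  bdd := EisensteinSeries.isBoundedAtImInfty_E2

theorem rt_qExpansion_E2_coeff_zero : (qExpansion 1 EisensteinSeries.E2).coeff 0 = 1 := by
  have hN := rt_isNice_E2
  have hsum : ∀ τ : ℍ, HasSum (fun m : ℕ ↦ (if m = 0 then 1 else -24 * ArithmeticFunction.sigma 1 m : ℂ) •
      Periodic.qParam 1 τ ^ m) (EisensteinSeries.E2 τ) := by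
    intro τ
    simpa only [Function.Periodic.qParam, ofReal_one, div_one] using
      EisensteinSeries.hasSum_qExpansion_E2 (z := τ)
  have h1 : (0 : ℝ) < 1 := one_pos
  have han : AnalyticAt ℂ (cuspFunction 1 EisensteinSeries.E2) 0 := by
    have := hN.analyticAt (by norm_num)
    simpa using this
  have := qExpansion_coeff_unique' h1 han hsum 0
  rw [← this]
  simp

/-- `E₄^(3m)` as a modular form of weight `12 m` -/
noncomputable def rtE4Pow (m : ℕ) : ModularForm 𝒮ℒ (12 * (m : ℤ)) :=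
  ModularForm.mcast (by push_cast; ring) (ModularForm.E₄.pow (3 * m))

theorem rtE4Pow_apply (m : ℕ) (z : ℍ) : rtE4Pow m z = ModularForm.E₄ z ^ (3 * m) := by
  rw [rtE4Pow, ModularForm.mcast_apply, ModularForm.coe_pow]
  rfl

theorem rtE4Pow_eq (m : ℕ) (z : ℍ) : rtE4Pow m z = jFun z ^ m * Δ z ^ m := by
  rw [rtE4Pow_apply, ← mul_pow, jFun_mul_discriminant, ← pow_mul]

/-- `∂_{12m}(E₄^{3m}) = D(j^m) Δ^m` -/
theorem rt_serreDerivative_E4Pow (m : ℕ) (z : ℍ) :
    serreDerivativeForm (rtE4Pow m) z = D (fun w => jFun w ^ m) z * Δ z ^ m := by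
  have hfun : (rtE4Pow m : ℍ → ℂ) = (jFun ^ m) * ((Δ : ℍ → ℂ) ^ m) := by
    funext w
    rw [rtE4Pow_eq]
    rfl
  have hj : MDiff (jFun ^ m) := mdiff_jFun.pow m
  have hΔ : MDiff ((Δ : ℍ → ℂ) ^ m) := mdiff_discriminant.pow m
  rw [serreDerivativeForm_apply, serreDerivative_apply, hfun,
    normalizedDerivOfComplex_mul _ _ hj hΔ, normalizedDerivOfComplex_pow _ m mdiff_discriminant]
  simp only [Pi.add_apply, Pi.mul_apply, Pi.pow_apply, Pi.natCast_apply, D_discriminant]
  have hpow : (Δ z) ^ m = Δ z ^ (m - 1) * Δ z ∨ m = 0 := by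
    rcases Nat.eq_zero_or_pos m with h | h
    · exact Or.inr h
    · left
      rw [← pow_succ, Nat.sub_add_cancel h]
  have hD : D (jFun ^ m) z = D (fun w => jFun w ^ m) z := rfl
  rw [hD]
  rcases hpow with h | h
  · push_cast
    rw [h]
    ring
  · subst h
    simp

/-- the constant term of `∂_{12m}(E₄^{3m}) / Δ^m` vanishes -/
theorem rtCT_serreDerivative_E4Pow (m : ℕ) :
    rtCT (fun z => serreDerivativeForm (rtE4Pow m) z / Δ z ^ m) = 0 := by
  have h : (fun z => serreDerivativeForm (rtE4Pow m) z / Δ z ^ m) =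
      D (fun w => jFun w ^ m) := by
    funext z
    rw [rt_serreDerivative_E4Pow, mul_div_assoc, div_self (pow_ne_zero m (discriminant_ne_zero z)),
      mul_one]
  rw [h]
  exact rtCT_D (isQLaurentable_jFun.pow m)

theorem rt_qExpansion_E4Pow_coeff_zero (m : ℕ) :
    (qExpansion 1 (rtE4Pow m)).coeff 0 = 1 := by
  have hfun : (rtE4Pow m : ℍ → ℂ) = fun z => ModularForm.E₄ z ^ (3 * m) := by
    funext z
    exact rtE4Pow_apply m z
  have h1 : ((1 : ℕ) : ℝ) = 1 := Nat.cast_one
  have := isNice_E₄.qExpansion_pow (by norm_num) (3 * m)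
  rw [h1] at this
  rw [hfun, this, PowerSeries.coeff_zero_eq_constantCoeff, map_pow,
    ← PowerSeries.coeff_zero_eq_constantCoeff,
    EisensteinSeries.E_qExpansion_coeff_zero (by norm_num) ⟨2, rfl⟩, one_pow]

/-- nice functions have nice derivatives -/
theorem rt_isNice_D {F : ℍ → ℂ} (hF : IsNice ((1 : ℕ) : ℝ) F) : IsNice ((1 : ℕ) : ℝ) (D F) where
  mdiff := normalizedDerivOfComplex_mdifferentiable hF.mdiff
  periodic := D_vadd_of_periodic hF.periodic
  bdd := by
    have hper : Function.Periodic (F ∘ ofComplex) ((1 : ℝ) : ℂ) := by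
      have := hF.periodic'
      simpa using this
    exact isBoundedAtImInfty_D hF.mdiff hper hF.bdd

/-- the constant coefficient of `∂_{12m}(E₄^{3m})` is `-m` -/
theorem rt_qExpansion_serreDerivative_E4Pow_coeff_zero (m : ℕ) :
    (qExpansion 1 (serreDerivativeForm (rtE4Pow m))).coeff 0 = -(m : ℂ) := by
  have h1 : ((1 : ℕ) : ℝ) = 1 := Nat.cast_one
  have hF := rt_isNice_levelOne (rtE4Pow m)
  have hDF := rt_isNice_D hF
  have hE2F : IsNice ((1 : ℕ) : ℝ) (fun z => EisensteinSeries.E2 z * rtE4Pow m z) :=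
    rt_isNice_E2.mul hF
  have hfun : (serreDerivativeForm (rtE4Pow m) : ℍ → ℂ) =
      fun z => D (rtE4Pow m : ℍ → ℂ) z + (-(m : ℂ)) * (EisensteinSeries.E2 z * rtE4Pow m z) := by
    funext z
    rw [serreDerivativeForm_apply, serreDerivative_apply]
    push_cast
    ring
  have hc : IsNice ((1 : ℕ) : ℝ) (fun z => (-(m : ℂ)) * (EisensteinSeries.E2 z * rtE4Pow m z)) :=
    (IsNice.const _ (-(m : ℂ))).mul hE2F
  have e1 := rtCT_of_nice (hDF.add hc)
  have e2 := rtCT_add hDF.isQLaurentable hc.isQLaurentable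
  have e3 := rtCT_const_mul (-(m : ℂ)) hE2F.isQLaurentable
  have e4 := rtCT_of_nice hE2F
  have e5 := rtCT_D hF.isQLaurentable
  have e6 := rt_isNice_E2.qExpansion_mul hF (by norm_num)
  rw [h1] at e6
  rw [hfun, ← e1, e2, e3, e4, e5, e6, PowerSeries.coeff_zero_eq_constantCoeff, map_mul,
    ← PowerSeries.coeff_zero_eq_constantCoeff]
  rw [rt_qExpansion_E2_coeff_zero, rt_qExpansion_E4Pow_coeff_zero]
  ring

theorem rt_levelOne_weight_two_eq_zero (T : ModularForm 𝒮ℒ 2) : T = 0 :=
  rank_zero_iff_forall_zero.mp levelOne_weight_two_rank_zero T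

theorem rtCT_zero : rtCT (fun _ : ℍ => (0 : ℂ)) = 0 := by
  rw [rtCT, qLaurent_const]
  simp

/-- **Weakly holomorphic forms of weight two and level one have vanishing constant term.**
For `T ∈ M_{12m+2}(SL(2,ℤ))`, the constant term of `T / Δ^m` is zero. -/
theorem rtCT_levelOne : ∀ (m : ℕ) (k : ℤ), k = 12 * (m : ℤ) + 2 → ∀ T : ModularForm 𝒮ℒ k,
    rtCT (fun z => T z / Δ z ^ m) = 0 := by
  intro m
  induction m with
  | zero =>
    intro k hk T
    have hk2 : k = 2 := by simpa using hk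
    subst hk2
    rw [rt_levelOne_weight_two_eq_zero T]
    have : (fun z : ℍ => (0 : ModularForm 𝒮ℒ 2) z / Δ z ^ 0) = fun _ => (0 : ℂ) := by
      funext z
      simp
    rw [this, rtCT_zero]
  | succ m ih =>
    intro k hk T
    have h1 : ((1 : ℕ) : ℝ) = 1 := Nat.cast_one
    have hm1 : ((m : ℂ) + 1) ≠ 0 := by
      have : ((m + 1 : ℕ) : ℂ) ≠ 0 := Nat.cast_ne_zero.mpr (Nat.succ_ne_zero m)
      simpa using this
    set G : ModularForm 𝒮ℒ k :=
      ModularForm.mcast (by rw [hk]) (serreDerivativeForm (rtE4Pow (m + 1))) with hG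
    have hGapp : ∀ z, G z = serreDerivativeForm (rtE4Pow (m + 1)) z := fun z => rfl
    have hGfun : (G : ℍ → ℂ) = (serreDerivativeForm (rtE4Pow (m + 1)) : ℍ → ℂ) := funext hGapp
    set a : ℂ := (qExpansion 1 T).coeff 0 with ha
    set c : ℂ := a / ((m : ℂ) + 1) with hc
    set T₁ : ModularForm 𝒮ℒ k := T + c • G with hT₁
    have hT₁app : ∀ z, T₁ z = T z + c * G z := fun z => rfl
    have hNT := rt_isNice_levelOne T
    have hNG := rt_isNice_levelOne G
    have h0 : (qExpansion 1 T₁).coeff 0 = 0 := by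
      have hfun : (T₁ : ℍ → ℂ) = fun z => T z + c * G z := funext hT₁app
      have hcG : IsNice ((1 : ℕ) : ℝ) (fun z => c * G z) := (IsNice.const _ c).mul hNG
      have e1 := hNT.qExpansion_add hcG (by norm_num)
      have e2 := (IsNice.const ((1 : ℕ) : ℝ) c).qExpansion_mul hNG (by norm_num)
      have e3 := IsNice.qExpansion_const ((1 : ℕ) : ℝ) c
      rw [h1] at e1 e2 e3
      rw [hfun, e1, e2, e3, map_add, PowerSeries.coeff_C_mul, hGfun,
        rt_qExpansion_serreDerivative_E4Pow_coeff_zero, ← ha, hc]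
      push_cast
      field_simp
      ring
    set T₂ : ModularForm 𝒮ℒ (k - 12) := CuspForm.discriminantEquiv (ModularForm.toCuspForm T₁ h0)
      with hT₂
    have hT₂app : ∀ z, T₂ z = T₁ z / Δ z := fun z => rfl
    have key : ∀ z : ℍ, T z / Δ z ^ (m + 1) =
        T₂ z / Δ z ^ m - c * (serreDerivativeForm (rtE4Pow (m + 1)) z / Δ z ^ (m + 1)) := by
      intro z
      have hΔ := discriminant_ne_zero z
      rw [hT₂app, hT₁app, hGapp, pow_succ]
      field_simp
      ring
    rw [rtCT_congr key, rtCT_sub (rt_isQLaurentable_div T₂ m)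
      ((IsQLaurentable.const 1 c).mul (rt_isQLaurentable_div _ (m + 1))),
      rtCT_const_mul c (rt_isQLaurentable_div _ (m + 1)), rtCT_serreDerivative_E4Pow,
      ih (k - 12) (by rw [hk]; push_cast; ring) T₂]
    ring

end Fermat.Agent.Eis
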