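/-
P11 / S16, package R (modular half), part 4: `w = u₄ Δ^k` (`p = 6k + 1`) is a modular form of
weight `12 k` on `Γ₀(p)`; its behaviour at the two cusps.
-/
import Mathlib
import Fermat.Agent.Lib.Eis.ResTest.EtaFourFun
import Fermat.Agent.Lib.Eis.Level.Cosets

set_option autoImplicit false

open ModularForm Complex ModularGroup CongruenceSubgroup Filter Topology
open Fermat.Agent.S24Lib Fermat.Agent.ES
open UpperHalfPlane hiding I
open Matrix.SpecialLinearGroup
open scoped Real MatrixGroups ModularForm Manifold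

namespace Fermat.Agent.Eis

local notation "Δ" => ModularForm.discriminant

variable (p : ℕ) [NeZero p]

/-- the function `w = u₄ Δ^k` -/
noncomputable def rtWFun (k : ℕ) : ℍ → ℂ := fun z => rtU4 p z * Δ z ^ k

theorem rtWFun_slash (k : ℕ) (γ : SL(2, ℤ)) :
    (rtWFun p k ∣[(12 * (k : ℤ))] γ) = fun z => rtU4 p (γ • z) * Δ z ^ k := by
  funext z
  have hd : denom γ z ≠ 0 := denom_ne_zero γ z
  rw [SL_slash_apply, rtWFun, discriminant_smul, mul_pow, zpow_neg]
  have h12 : (denom γ z ^ (12 : ℤ)) ^ k = denom γ z ^ (12 * (k : ℤ)) := by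
    rw [← zpow_natCast, ← _root_.zpow_mul]
  rw [h12]
  have hne : denom γ z ^ (12 * (k : ℤ)) ≠ 0 := zpow_ne_zero _ hd
  field_simp

/-- translation by `T^b` preserves `atImInfty` -/
theorem rt_tendsto_T_zpow_smul (b : ℤ) :
    Tendsto (fun z : ℍ => (T ^ b • z : ℍ)) atImInfty atImInfty := by
  rw [atImInfty, tendsto_comap_iff]
  have : (UpperHalfPlane.im ∘ fun z : ℍ => (T ^ b • z : ℍ)) = UpperHalfPlane.im := by
    funext z
    simp only [Function.comp_apply]
    exact ModularGroup.im_T_zpow_smul z b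
  rw [this]
  exact tendsto_comap

/-- `z ↦ z / p` preserves `atImInfty` -/
theorem rt_tendsto_eeDiv : Tendsto (eeDiv p) atImInfty atImInfty := by
  rw [atImInfty, tendsto_comap_iff]
  have hp : (0 : ℝ) < p := by exact_mod_cast Nat.pos_of_ne_zero (NeZero.ne p)
  have : (UpperHalfPlane.im ∘ eeDiv p) = fun z : ℍ => z.im / p := by
    funext z
    simp only [Function.comp_apply]
    show ((eeDiv p z : ℍ) : ℂ).im = _
    rw [coe_eeDiv, show ((p : ℂ)) = ((p : ℝ) : ℂ) by push_cast; rfl, Complex.div_ofReal_im]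
    rfl
  rw [this]
  exact (Filter.tendsto_comap (f := UpperHalfPlane.im) (x := atTop)).atTop_div_const hp

/-- `z ↦ p z` preserves `atImInfty` -/
theorem rt_tendsto_eeScale : Tendsto (eeScale p) atImInfty atImInfty := by
  rw [atImInfty, tendsto_comap_iff]
  have hp : (0 : ℝ) < p := by exact_mod_cast Nat.pos_of_ne_zero (NeZero.ne p)
  have : (UpperHalfPlane.im ∘ eeScale p) = fun z : ℍ => (p : ℝ) * z.im := by
    funext z
    simp only [Function.comp_apply]
    show ((eeScale p z : ℍ) : ℂ).im = _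
    rw [coe_eeScale]
    simp
  rw [this]
  exact (Filter.tendsto_comap (f := UpperHalfPlane.im) (x := atTop)).const_mul_atTop hp

theorem rt_isBoundedAtImInfty_comp {f : ℍ → ℂ} (hf : IsBoundedAtImInfty f) {s : ℍ → ℍ}
    (hs : Tendsto s atImInfty atImInfty) : IsBoundedAtImInfty (fun z => f (s z)) := by
  have := Asymptotics.IsBigO.comp_tendsto hf hs
  exact this

theorem rt_isZeroAtImInfty_comp {f : ℍ → ℂ} (hf : IsZeroAtImInfty f) {s : ℍ → ℍ}
    (hs : Tendsto s atImInfty atImInfty) : IsZeroAtImInfty (fun z => f (s z)) :=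
  Tendsto.comp hf hs

theorem rt_isZeroAtImInfty_qH {h : ℝ} (hh : 0 < h) : IsZeroAtImInfty (qH h) :=
  qParam_tendsto_atImInfty hh

/-- the auxiliary nice function `∏ (1 - qⁿ)/(1 - q^{pn})` is bounded at `∞` -/
theorem rt_isBoundedAtImInfty_etaRatio :
    IsBoundedAtImInfty (fun z => eeP z * (eeP (eeScale p z))⁻¹) :=
  (isNice_eeP 1).bdd.mul (rt_isBoundedAtImInfty_comp (isNice_eeP_inv 1).bdd (rt_tendsto_eeScale p))

/-- the same at the cusp `0` -/
theorem rt_isBoundedAtImInfty_etaRatio_div :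
    IsBoundedAtImInfty (fun z => eeP z * (eeP (eeDiv p z))⁻¹) :=
  (isNice_eeP 1).bdd.mul (rt_isBoundedAtImInfty_comp (isNice_eeP_inv 1).bdd (rt_tendsto_eeDiv p))

/-- `w = u₄ Δ^k` is bounded at `∞` -/
theorem rt_isBoundedAtImInfty_rtWFun {k : ℕ} (hk : p = 6 * k + 1) :
    IsBoundedAtImInfty (rtWFun p k) := by
  have h1 : IsBoundedAtImInfty (fun z : ℍ => (Δ z / qH 1 z) ^ k) :=
    ((isNice_discriminant_div_qH 1).pow k).bdd
  have h2 : IsBoundedAtImInfty (fun z => (eeP z * (eeP (eeScale p z))⁻¹) ^ 4) := by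
    have := (rt_isBoundedAtImInfty_etaRatio p)
    have h := (this.mul this).mul (this.mul this)
    refine isBoundedAtImInfty_congr h (fun z => ?_)
    simp only [Pi.mul_apply]
    ring
  refine isBoundedAtImInfty_congr (h1.mul h2) (fun z => ?_)
  simp only [Pi.mul_apply]
  rw [rtWFun, rtU4_eq p hk, Nat.cast_one]
  have hq := qH_ne_zero 1 z
  rw [div_pow]
  show Δ z ^ k / qH 1 z ^ k * (eeP z * (eeP (eeScale p z))⁻¹) ^ 4 =
    (qH 1 z)⁻¹ ^ k * (eeP z * (eeP (eeScale p z))⁻¹) ^ 4 * Δ z ^ k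
  rw [inv_pow]
  field_simp

/-- `u₄ ∘ S` vanishes at `∞` (for `k ≥ 1`) -/
theorem rt_isZeroAtImInfty_rtU4_S {k : ℕ} (hk : p = 6 * k + 1) (hk0 : 0 < k) :
    IsZeroAtImInfty (fun z => rtU4 p (S • z)) := by
  have hp : (0 : ℝ) < p := by exact_mod_cast Nat.pos_of_ne_zero (NeZero.ne p)
  rw [rtU4_S_eq p hk]
  have h1 : IsZeroAtImInfty (fun z => (qH (p : ℝ) z) ^ k) := by
    obtain ⟨k', rfl⟩ : ∃ k', k = k' + 1 := ⟨k - 1, by omega⟩
    have hb : IsBoundedAtImInfty (fun z => (qH (p : ℝ) z) ^ k') := ((isNice_qH hp).pow k').bdd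
    have := hb.mul_zeroAtFilter (rt_isZeroAtImInfty_qH hp)
    refine Tendsto.congr (fun z => ?_) this
    simp only [Pi.mul_apply]
    rw [pow_succ]
  have h2 : IsBoundedAtImInfty (fun z => (eeP z * (eeP (eeDiv p z))⁻¹) ^ 4) := by
    have := (rt_isBoundedAtImInfty_etaRatio_div p)
    have h := (this.mul this).mul (this.mul this)
    refine isBoundedAtImInfty_congr h (fun z => ?_)
    simp only [Pi.mul_apply]
    ring
  have h3 : IsBoundedAtImInfty (fun _ : ℍ => (p : ℂ) ^ 2) := Filter.const_boundedAtFilter _ _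
  have := h3.mul_zeroAtFilter (h1.mul_boundedAtFilter h2)
  exact this

/-- `u₄ ∘ (S T^b)` vanishes at `∞` -/
theorem rt_isZeroAtImInfty_rtU4_egRep {k : ℕ} (hk : p = 6 * k + 1) (hk0 : 0 < k) (b : ℕ) :
    IsZeroAtImInfty (fun z => rtU4 p (egRep b • z)) := by
  have := rt_isZeroAtImInfty_comp (rt_isZeroAtImInfty_rtU4_S p hk hk0)
    (rt_tendsto_T_zpow_smul (b : ℤ))
  refine Tendsto.congr (fun z => ?_) this
  rw [egRep, mul_smul]

/-! ### `w` as a modular form on `Γ₀(p)` -/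

section form

variable [hpF : Fact p.Prime]

local notation "Γ₀'" => (Subgroup.map (mapGL ℝ) (Gamma0 p))

omit hpF in
theorem rtWFun_slash_gamma0 {k : ℕ} (hk : p = 6 * k + 1) {γ : SL(2, ℤ)} (hγ : γ ∈ Gamma0 p) :
    (rtWFun p k ∣[(12 * (k : ℤ))] γ) = rtWFun p k := by
  rw [rtWFun_slash]
  funext z
  rw [rtU4_gamma0_invariant p (by omega) (by omega) γ hγ z, rtWFun]

omit hpF in
theorem rt_isBoundedAtImInfty_rtWFun_slash_egRep {k : ℕ} (hk : p = 6 * k + 1) (hk0 : 0 < k)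
    (b : ℕ) : IsBoundedAtImInfty (rtWFun p k ∣[(12 * (k : ℤ))] egRep b) := by
  rw [rtWFun_slash]
  have h1 := (rt_isZeroAtImInfty_rtU4_egRep p hk hk0 b).boundedAtFilter
  have h2 : IsBoundedAtImInfty (fun z : ℍ => Δ z ^ k) := ((isNice_discriminant 1).pow k).bdd
  exact h1.mul h2

theorem rt_isBoundedAtImInfty_rtWFun_slash {k : ℕ} (hk : p = 6 * k + 1) (hk0 : 0 < k)
    (γ : SL(2, ℤ)) : IsBoundedAtImInfty (rtWFun p k ∣[(12 * (k : ℤ))] γ) := by
  rcases eg_exists_coset p γ with hγ | ⟨b, -, hγ⟩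
  · rw [rtWFun_slash_gamma0 p hk hγ]
    exact rt_isBoundedAtImInfty_rtWFun p hk
  · have e : γ = (γ * (egRep b)⁻¹) * egRep b := by group
    rw [e, SlashAction.slash_mul, rtWFun_slash_gamma0 p hk hγ]
    exact rt_isBoundedAtImInfty_rtWFun_slash_egRep p hk hk0 b

omit hpF in
theorem rt_mdifferentiable_rtWFun {k : ℕ} (hk : p = 6 * k + 1) :
    MDifferentiable (modelWithCornersSelf ℂ ℂ) (modelWithCornersSelf ℂ ℂ) (rtWFun p k) := by
  have h1 := (rt_qLaurent_rtU4 p hk).1.mdiff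
  have h2 : MDifferentiable (modelWithCornersSelf ℂ ℂ) (modelWithCornersSelf ℂ ℂ)
      (fun z : ℍ => Δ z ^ k) := mdiff_discriminant.pow k
  exact h1.mul h2

/-- `w = u₄ Δ^k ∈ M_{12k}(Γ₀(p))`, `p = 6k + 1` -/
noncomputable def rtW {k : ℕ} (hk : p = 6 * k + 1) (hk0 : 0 < k) :
    ModularForm Γ₀' (12 * (k : ℤ)) where
  toFun := rtWFun p k
  slash_action_eq' x hx := by
    obtain ⟨γ, hγ, rfl⟩ := hx
    have := rtWFun_slash_gamma0 p hk hγ
    rw [SL_slash] at this
    exact this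
  holo' := rt_mdifferentiable_rtWFun p hk
  bdd_at_cusps' {c} hc := by
    have hc' : IsCusp c 𝒮ℒ := (Subgroup.IsArithmetic.isCusp_iff_isCusp_SL2Z Γ₀').mp hc
    rw [OnePoint.isBoundedAt_iff_forall_SL2Z hc']
    intro γ _
    exact rt_isBoundedAtImInfty_rtWFun_slash p hk hk0 γ

theorem coe_rtW {k : ℕ} (hk : p = 6 * k + 1) (hk0 : 0 < k) : ⇑(rtW p hk hk0) = rtWFun p k := rfl

end form

end Fermat.Agent.Eis
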