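/-
P11 / S16, package R (modular half), part 5: for `G ∈ M₂(Γ₀(p))`, `p = 6k + 1`, `k ≥ 1`,
the constant term of `u₄ G` vanishes (`u₄ = (η(z)/η(pz))⁴`).

Proof: `T = Tr(u₄ Δ^k G)` has level one and weight `12k + 2`, so `T / Δ^k` has vanishing constant
term; `T / Δ^k = u₄ G + ∑_b u₄(S T^b z) (G ∣ S T^b)(z)` and each term of the sum vanishes at `∞`.
-/
import Mathlib
import Fermat.Agent.Lib.Eis.ResTest.TraceW
import Fermat.Agent.Lib.Eis.ResTest.LevelOneCT
import Fermat.Prelude.Thm_CongruenceSubgroup_one_mem_strictPeriods_Gamma0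

set_option autoImplicit false

open ModularForm Complex ModularGroup CongruenceSubgroup Filter Topology
open Fermat.Agent.S24Lib Fermat.Agent.ES
open UpperHalfPlane hiding I
open Matrix.SpecialLinearGroup
open scoped Real MatrixGroups ModularForm Manifold

namespace Fermat.Agent.Eis

local notation "Δ" => ModularForm.discriminant

/-- a `q`-Laurentable function vanishing at `∞` has vanishing constant term -/
theorem rtCT_of_isZeroAtImInfty {g : ℍ → ℂ} (hg : IsQLaurentable 1 g) (h0 : IsZeroAtImInfty g) :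
    rtCT g = 0 := by
  have hb : IsBoundedAtImInfty g := h0.boundedAtFilter
  have hn : IsNice ((1 : ℕ) : ℝ) g := ⟨hg.mdiff, hg.periodic, hb⟩
  rw [rtCT_of_nice hn]
  have hn' : IsNice (1 : ℝ) g := by
    have := hn
    rwa [Nat.cast_one] at this
  rw [qExpansion_coeff_zero one_pos (hn'.analyticAt one_pos) hn'.periodic']
  exact h0.valueAtInfty_eq_zero

variable (p : ℕ) [NeZero p] [hpF : Fact p.Prime]

local notation "Γ₀'" => (Subgroup.map (mapGL ℝ) (Gamma0 p))

omit hpF in
/-- a modular form on `Γ₀(p)` is nice -/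
theorem rt_isNice_gamma0 {k : ℤ} (G : ModularForm Γ₀' k) : IsNice ((1 : ℕ) : ℝ) (G : ℍ → ℂ) where
  mdiff := ModularFormClass.holo G
  periodic z := by
    have hmem : (((1 : ℕ) : ℝ)) ∈ (Γ₀').strictPeriods := by
      rw [Nat.cast_one]
      exact CongruenceSubgroup.one_mem_strictPeriods_Gamma0 p
    exact SlashInvariantForm.vAdd_apply_of_mem_strictPeriods G z hmem
  bdd := ModularFormClass.bdd_at_infty G

omit hpF in
theorem rt_isZeroAtImInfty_term {k : ℕ} (hk : p = 6 * k + 1) (hk0 : 0 < k)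
    (G : ModularForm Γ₀' 2) (b : ℕ) :
    IsZeroAtImInfty (fun z => rtU4 p (egRep b • z) * (⇑G ∣[(2 : ℤ)] egRep b) z) := by
  have h1 := rt_isZeroAtImInfty_rtU4_egRep p hk hk0 b
  have h2 : IsBoundedAtImInfty (⇑G ∣[(2 : ℤ)] egRep b) :=
    ModularFormClass.bdd_at_infty_slash G (egRep b)
  exact h1.mul_boundedAtFilter h2

/-- the trace of `w G` divided by `Δ^k` -/
theorem rt_trace_div {k : ℕ} (hk : p = 6 * k + 1) (hk0 : 0 < k) (G : ModularForm Γ₀' 2) (z : ℍ) :
    (ModularForm.trace 𝒮ℒ ((rtW p hk hk0).mul G)) z / Δ z ^ k =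
      rtU4 p z * G z +
        ∑ b ∈ Finset.range p, rtU4 p (egRep b • z) * (⇑G ∣[(2 : ℤ)] egRep b) z := by
  have hΔ : Δ z ^ k ≠ 0 := pow_ne_zero k (discriminant_ne_zero z)
  rw [coe_trace_gamma0, ModularForm.coe_mul, coe_rtW]
  have h : ∀ b ∈ Finset.range p,
      ((rtWFun p k * ⇑G) ∣[12 * (k : ℤ) + 2] (egRep b)) =
        fun z => (rtU4 p (egRep b • z) * Δ z ^ k) * (⇑G ∣[(2 : ℤ)] egRep b) z := by
    intro b _
    rw [mul_slash_SL2, rtWFun_slash]
    rfl
  rw [Finset.sum_congr rfl h]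
  simp only [Pi.add_apply, Pi.mul_apply, Finset.sum_apply, rtWFun]
  rw [add_div, Finset.sum_div]
  congr 1
  · field_simp
  · refine Finset.sum_congr rfl fun b _ => ?_
    field_simp

/-- **the constant term of `u₄ G` vanishes** for `G ∈ M₂(Γ₀(p))`, `p = 6k + 1`, `k ≥ 1` -/
theorem rtCT_rtU4_mul {k : ℕ} (hk : p = 6 * k + 1) (hk0 : 0 < k) (G : ModularForm Γ₀' 2) :
    rtCT (fun z => rtU4 p z * G z) = 0 := by
  set T := ModularForm.trace 𝒮ℒ ((rtW p hk hk0).mul G) with hT
  have hT0 : rtCT (fun z => T z / Δ z ^ k) = 0 := rtCT_levelOne k _ rfl T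
  have hA : IsQLaurentable 1 (fun z => T z / Δ z ^ k) := rt_isQLaurentable_div T k
  have hB : IsQLaurentable 1 (fun z => rtU4 p z * G z) :=
    (rt_qLaurent_rtU4 p hk).1.mul (rt_isNice_gamma0 p G).isQLaurentable
  have hR : (fun z => T z / Δ z ^ k - rtU4 p z * G z) =
      fun z => ∑ b ∈ Finset.range p, rtU4 p (egRep b • z) * (⇑G ∣[(2 : ℤ)] egRep b) z := by
    funext z
    rw [hT, rt_trace_div p hk hk0 G z, add_sub_cancel_left]
  have hR0 : IsZeroAtImInfty
      (fun z => ∑ b ∈ Finset.range p, rtU4 p (egRep b • z) * (⇑G ∣[(2 : ℤ)] egRep b) z) := by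
    have : ∀ s : Finset ℕ, IsZeroAtImInfty
        (fun z => ∑ b ∈ s, rtU4 p (egRep b • z) * (⇑G ∣[(2 : ℤ)] egRep b) z) := by
      intro s
      induction s using Finset.induction_on with
      | empty =>
        simp only [Finset.sum_empty]
        exact tendsto_const_nhds
      | insert a s ha ih =>
        have h1 := rt_isZeroAtImInfty_term p hk hk0 G a
        have := h1.add ih
        simp only [Finset.sum_insert ha]
        exact this
    exact this _
  have hRct : rtCT (fun z => T z / Δ z ^ k - rtU4 p z * G z) = 0 := by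
    refine rtCT_of_isZeroAtImInfty (hA.sub hB) ?_
    rw [hR]
    exact hR0
  rw [rtCT_sub hA hB, hT0, zero_sub, neg_eq_zero] at hRct
  exact hRct

end Fermat.Agent.Eis
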